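import Fermat.Agent.LT.T8.H468.HoroBase
import Fermat.Agent.LT.T8.Spec

/-!
# Row LT, tower T8, sub-leaf `HoroC` (MS4b, ADELIC) (helper468, OFF-MAIN, shadow of helper51)

`horoC468 : Fermat.Agent.LT.T8.HoroC` (PROVED, no hole), VERBATIM vs `LT/T8/Spec.lean` (helper19).

`U κ x y = φ (b(x, y)_∞ · d(k) · g₁)`, `k` a positive representative of `κ⁻¹`, `d(k)` the matrix
`[[k, 0], [0, 1]]` at the places dividing `M`, `g₁` the base point cut to the places dividing `M`
and infinity, `M` a level of the base point (`MS4.exists_level`, helper51).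
-/

set_option autoImplicit false
set_option linter.unusedSectionVars false

open IsDedekindDomain NumberField AutomorphicForm
open scoped MatrixGroups Classical WithZero

noncomputable section

namespace Fermat.Agent.LT.T8.H468

open Fermat.Agent.LT.H556.A0 Fermat.Agent.LT.T8.H864 Fermat.Agent.LT.H51.MS4
open Fermat.Agent.LT.T8

/-! ## Representatives of the classes of units -/

/-- A positive representative of a class of units modulo `M`. -/
def hrep468 (M : ℕ) (u : (ZMod M)ˣ) : ℕ := (u : ZMod M).val + M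

theorem hrep468_cast {M : ℕ} (hM0 : M ≠ 0) (u : (ZMod M)ˣ) :
    ((hrep468 M u : ℕ) : ZMod M) = (u : ZMod M) := by
  have : NeZero M := ⟨hM0⟩
  unfold hrep468
  rw [Nat.cast_add, ZMod.natCast_zmod_val, ZMod.natCast_self, add_zero]

theorem hrep468_coprime {M : ℕ} (hM0 : M ≠ 0) (u : (ZMod M)ˣ) : Nat.Coprime (hrep468 M u) M := by
  rw [← ZMod.isUnit_iff_coprime, hrep468_cast hM0]
  exact u.isUnit

theorem int_dvd_of_zmod468 {M : ℕ} (n : ℤ) (h : ((n : ℤ) : ZMod M) = 0) : (M : ℤ) ∣ n :=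
  (ZMod.intCast_zmod_eq_zero_iff_dvd n M).1 h

/-! ## Small facts on the places -/

theorem not_dvd_level_vP468 (𝔫 : Ideal (𝓞 ℚ)) {M : ℕ} (hM : Ideal.absNorm 𝔫 ∣ M) {p : ℕ}
    (hp : p.Prime) (hpM : ¬ p ∣ M) : ¬ (vP p hp).asIdeal ∣ 𝔫 := by
  intro hd
  have h1 : ((Ideal.absNorm 𝔫 : ℕ) : 𝓞 ℚ) ∈ (vP p hp).asIdeal :=
    Ideal.le_of_dvd hd (Ideal.absNorm_mem 𝔫)
  have h2 := (natCast_mem_iff _ _).1 h1
  rw [natGenerator_vP] at h2
  exact hpM (dvd_trans h2 hM)

theorem vP_notMem_TM468 {M p : ℕ} (hp : p.Prime) (hpM : ¬ p ∣ M) : vP p hp ∉ TM468 M := by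
  intro h
  rw [mem_TM468, valuation_natCast_lt_one_iff, natCast_mem_iff, natGenerator_vP] at h
  exact hpM h

theorem near_of_integralBoth468 {v : HeightOneSpectrum (𝓞 ℚ)}
    {m : GL (Fin 2) (v.adicCompletion ℚ)} (hm : IntegralBoth v m) : Near v 1 m := by
  have h1 : ∀ i j : Fin 2,
      Valued.v ((1 : Matrix (Fin 2) (Fin 2) (v.adicCompletion ℚ)) i j) ≤ 1 := by
    intro i j
    have := (integralBoth_one v i j).1
    rwa [Units.val_one] at this
  intro i j
  constructor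
  · rw [Matrix.sub_apply]
    exact Valued.v.map_sub_le (hm i j).1 (h1 i j)
  · rw [Matrix.sub_apply]
    exact Valued.v.map_sub_le (hm i j).2 (h1 i j)

/-! ## The horocycle family -/

/-- The horocycle family through `g₀` of level `M`. -/
def U468 (φ : G ℚ → ℂ) (M : ℕ) (g₀ : G ℚ) (κ : (ZMod M)ˣ) (x y : ℝ) : ℂ :=
  φ (bInf wQ_isReal x y * dK468 M (hrep468 M κ⁻¹) * g1_468 M g₀)

section Family

variable {π : HeckeEigensystem ℚ ℂ} {φ : G ℚ → ℂ} (hφ : IsSph0CuspFormFor π φ)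
  {g₀ : G ℚ} {M : ℕ} (hM : Lvl468 π.level g₀ M)

include hφ hM

/-- The local condition of `transport468` at the place of `h = [[a, c], [0, 1]]_p`. -/
theorem hfin_at_vP468 {p : ℕ} (hp : p.Prime) (hpM : ¬ p ∣ M) (a c : ℚ) (k k' : ℕ) :
    LocLevel π.level (vP p hp)
      ((finCompHom (vP p hp) (g1_468 M g₀))⁻¹ *
        ((finCompHom (vP p hp) (dK468 M k'))⁻¹ * (ratFin (vP p hp) (ut a c 1))⁻¹ *
          finCompHom (vP p hp) (dK468 M k)) *
        finCompHom (vP p hp) (g1_468 M g₀) *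
        finCompHom (vP p hp) (locFinK (vP p hp) (ut a c 1))) := by
  have hv := vP_notMem_TM468 hp hpM
  rw [finCompHom_g1_468_notMem g₀ hv, finCompHom_dK468_notMem k hv,
    finCompHom_dK468_notMem k' hv, finCompHom_locFinK_self, finCompHom_diagG]
  have e : (1 : GL (Fin 2) ((vP p hp).adicCompletion ℚ))⁻¹ *
      (1⁻¹ * (ratFin (vP p hp) (ut a c 1))⁻¹ * 1) * 1 *
        Matrix.GeneralLinearGroup.map (algebraMap ℚ ((vP p hp).adicCompletion ℚ)) (ut a c 1)
      = 1 := by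
    rw [inv_one, one_mul, one_mul, mul_one, mul_one]
    exact inv_mul_cancel _
  rw [e]
  exact locLevel_one _ _

/-- The local condition of `transport468` at the places different from the one of `h`. -/
theorem hfin_off_vP468 {p : ℕ} (hp : p.Prime) {v : HeightOneSpectrum (𝓞 ℚ)}
    (hv : v ≠ vP p hp) {a : ℚ} (c : ℚ) {k k' : ℕ}
    (hk : Nat.Coprime k M) (hk' : Nat.Coprime k' M)
    (hva : v.valuation ℚ a = 1)
    (h1 : v.valuation ℚ ((k : ℚ) - a * (k' : ℚ)) ≤ v.valuation ℚ (M : ℚ))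
    (h2 : v.valuation ℚ (1 - a) ≤ 1)
    (hc : v.valuation ℚ c ≤ v.valuation ℚ (M : ℚ)) (γ : GL (Fin 2) ℚ) :
    LocLevel π.level v
      ((finCompHom v (g1_468 M g₀))⁻¹ *
        ((finCompHom v (dK468 M k'))⁻¹ * (ratFin v (ut a c 1))⁻¹ *
          finCompHom v (dK468 M k)) *
        finCompHom v (g1_468 M g₀) *
        finCompHom v (locFinK (vP p hp) γ)) := by
  rw [locFinK_apply, finCompHom_locFin_of_ne hv, mul_one]
  exact hM.conj1 v _ (near_dK468 v c hk hk' hva h1 h2 hc)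

/-- PERIOD. -/
theorem U468_periodic (κ : (ZMod M)ˣ) (x y : ℝ) (hy : 0 < y) :
    U468 φ M g₀ κ (x + M) y = U468 φ M g₀ κ x y := by
  unfold U468
  have hk : Nat.Coprime (hrep468 M κ⁻¹) M := hrep468_coprime hM.ne_zero _
  have hfin : ∀ v : HeightOneSpectrum (𝓞 ℚ), LocLevel π.level v
      ((finCompHom v (g1_468 M g₀))⁻¹ *
        ((finCompHom v (dK468 M (hrep468 M κ⁻¹)))⁻¹ * (ratFin v (ut (1 : ℚ) (M : ℚ) 1))⁻¹ *
          finCompHom v (dK468 M (hrep468 M κ⁻¹))) *
        finCompHom v (g1_468 M g₀) * finCompHom v (1 : G ℚ)) := by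
    intro v
    rw [map_one, mul_one]
    refine hM.conj1 v _ (near_dK468 v (M : ℚ) hk hk (map_one _) ?_ ?_ le_rfl)
    · rw [one_mul, sub_self, map_zero]
      exact zero_le
    · rw [sub_self, map_zero]
      exact zero_le
  have key := transport468 hφ M g₀ (a := 1) (M : ℚ) one_ne_zero x hy.ne' (hrep468 M κ⁻¹)
    (hrep468 M κ⁻¹) 1 (fun w => map_one _) hfin
  rw [Rat.cast_one, one_mul, one_mul, Rat.cast_natCast, mul_one] at key
  exact key

/-- SUM TERM. -/
theorem U468_sum_term {p : ℕ} (hp : p.Prime) (hpM : ¬ p ∣ M) (κ : (ZMod M)ˣ) (x y : ℝ)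
    (hy : 0 < y) (j : ℕ) :
    φ (bInf wQ_isReal x y * dK468 M (hrep468 M κ⁻¹) * g1_468 M g₀ *
        locFinK (vP p hp) (ut (p : ℚ) (-((j : ℚ) * (M : ℚ))) 1))
      = U468 φ M g₀ (κ * unitCls M p) ((x + j * M) / p) (y / p) := by
  unfold U468
  have hM0 := hM.ne_zero
  have hp0 : (p : ℚ) ≠ 0 := by exact_mod_cast hp.ne_zero
  have hpR : (p : ℝ) ≠ 0 := by exact_mod_cast hp.ne_zero
  have hcop : Nat.Coprime p M := (Nat.Prime.coprime_iff_not_dvd hp).2 hpM
  set k := hrep468 M κ⁻¹ with hkdef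
  set k' := hrep468 M (κ * unitCls M p)⁻¹ with hk'def
  have hk : Nat.Coprime k M := hrep468_coprime hM0 _
  have hk' : Nat.Coprime k' M := hrep468_coprime hM0 _
  have hdvd : (M : ℤ) ∣ (k : ℤ) - (p : ℤ) * (k' : ℤ) := by
    apply int_dvd_of_zmod468
    push_cast
    rw [hkdef, hk'def, hrep468_cast hM0, hrep468_cast hM0, ← unitCls_coe hcop, ← Units.val_mul,
      mul_inv_rev, mul_inv_cancel_left, sub_self]
  have hfin : ∀ v : HeightOneSpectrum (𝓞 ℚ), LocLevel π.level v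
      ((finCompHom v (g1_468 M g₀))⁻¹ *
        ((finCompHom v (dK468 M k'))⁻¹ *
          (ratFin v (ut (p : ℚ) (-((j : ℚ) * (M : ℚ))) 1))⁻¹ * finCompHom v (dK468 M k)) *
        finCompHom v (g1_468 M g₀) *
        finCompHom v (locFinK (vP p hp) (ut (p : ℚ) (-((j : ℚ) * (M : ℚ))) 1))) := by
    intro v
    by_cases hv : v = vP p hp
    · subst hv
      exact hfin_at_vP468 hφ hM hp hpM _ _ k k'
    · refine hfin_off_vP468 hφ hM hp hv _ hk hk' (valuation_prime_eq_one hp hv) ?_ ?_ ?_ _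
      · have e : (k : ℚ) - (p : ℚ) * (k' : ℚ) = (((k : ℤ) - (p : ℤ) * (k' : ℤ) : ℤ) : ℚ) := by
          push_cast
          ring
        rw [e]
        exact valuation_le_of_int_dvd468 v hdvd
      · have e : (1 : ℚ) - (p : ℚ) = (((1 : ℤ) - (p : ℤ) : ℤ) : ℚ) := by
          push_cast
          ring
        rw [e]
        exact Fermat.Agent.LT.H51.MS4.valuation_intCast_le_one v _
      · rw [Valuation.map_neg, map_mul]
        exact mul_le_of_le_one_left' (valuation_natCast_le_one v j)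
  have key := transport468 hφ M g₀ (a := (p : ℚ)) (-((j : ℚ) * (M : ℚ))) hp0
    ((x + j * M) / p) (y' := y / p) (div_ne_zero hy.ne' hpR) k k'
    (locFinK (vP p hp) (ut (p : ℚ) (-((j : ℚ) * (M : ℚ))) 1))
    (fun w => by rw [locFinK_apply, infCompHom_locFin]) hfin
  have ex : ((p : ℚ) : ℝ) * ((x + j * M) / p) + ((-((j : ℚ) * (M : ℚ)) : ℚ) : ℝ) = x := by
    push_cast
    field_simp
    ring
  have ey : ((p : ℚ) : ℝ) * (y / p) = y := by
    push_cast
    field_simp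
  rw [ex, ey] at key
  exact key

/-- LAST TERM. -/
theorem U468_last_term {p : ℕ} (hp : p.Prime) (hpM : ¬ p ∣ M) (κ : (ZMod M)ˣ) (x y : ℝ)
    (hy : 0 < y) :
    φ (bInf wQ_isReal x y * dK468 M (hrep468 M κ⁻¹) * g1_468 M g₀ *
        locFinK (vP p hp) (ut (1 : ℚ) 0 (p : ℚ)))
      = π.b (vP p hp) * U468 φ M g₀ (κ * (unitCls M p)⁻¹) (p * x) (p * y) := by
  unfold U468
  have hM0 := hM.ne_zero
  have hp0 : (p : ℚ) ≠ 0 := by exact_mod_cast hp.ne_zero
  have hpi0 : ((p : ℚ))⁻¹ ≠ 0 := inv_ne_zero hp0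
  have hpR : (p : ℝ) ≠ 0 := by exact_mod_cast hp.ne_zero
  have hcop : Nat.Coprime p M := (Nat.Prime.coprime_iff_not_dvd hp).2 hpM
  have hlev : ¬ (vP p hp).asIdeal ∣ π.level := not_dvd_level_vP468 π.level hM.dvd hp hpM
  set k := hrep468 M κ⁻¹ with hkdef
  set k' := hrep468 M (κ * (unitCls M p)⁻¹)⁻¹ with hk'def
  have hk : Nat.Coprime k M := hrep468_coprime hM0 _
  have hk' : Nat.Coprime k' M := hrep468_coprime hM0 _
  have hdvd : (M : ℤ) ∣ (p : ℤ) * (k : ℤ) - (k' : ℤ) := by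
    apply int_dvd_of_zmod468
    push_cast
    rw [hkdef, hk'def, hrep468_cast hM0, hrep468_cast hM0, ← unitCls_coe hcop, ← Units.val_mul,
      mul_inv_rev, inv_inv, sub_self]
  -- split off the scalar
  have hsplit : ut (1 : ℚ) 0 (p : ℚ) = ut ((p : ℚ))⁻¹ 0 1 * ut (p : ℚ) 0 (p : ℚ) := by
    rw [ut_mul _ _ hpi0 one_ne_zero hp0 hp0, inv_mul_cancel₀ hp0, mul_zero, zero_mul, add_zero,
      one_mul]
  rw [hsplit, map_mul, ← mul_assoc, heckeScalarQ468 π φ hφ p hp hlev]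
  congr 1
  have hfin : ∀ v : HeightOneSpectrum (𝓞 ℚ), LocLevel π.level v
      ((finCompHom v (g1_468 M g₀))⁻¹ *
        ((finCompHom v (dK468 M k'))⁻¹ *
          (ratFin v (ut ((p : ℚ))⁻¹ 0 1))⁻¹ * finCompHom v (dK468 M k)) *
        finCompHom v (g1_468 M g₀) *
        finCompHom v (locFinK (vP p hp) (ut ((p : ℚ))⁻¹ 0 1))) := by
    intro v
    by_cases hv : v = vP p hp
    · subst hv
      exact hfin_at_vP468 hφ hM hp hpM _ _ k k'
    · have hvp : v.valuation ℚ (p : ℚ) = 1 := valuation_prime_eq_one hp hv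
      refine hfin_off_vP468 hφ hM hp hv _ hk hk' ?_ ?_ ?_ ?_ _
      · rw [map_inv₀, hvp, inv_one]
      · have e : (k : ℚ) - ((p : ℚ))⁻¹ * (k' : ℚ)
            = ((((p : ℤ) * (k : ℤ) - (k' : ℤ) : ℤ) : ℚ)) / (p : ℚ) := by
          push_cast
          field_simp
        rw [e, map_div₀, hvp, div_one]
        exact valuation_le_of_int_dvd468 v hdvd
      · have e : (1 : ℚ) - ((p : ℚ))⁻¹ = ((((p : ℤ) - 1 : ℤ) : ℚ)) / (p : ℚ) := by
          push_cast
          field_simp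
        rw [e, map_div₀, hvp, div_one]
        exact Fermat.Agent.LT.H51.MS4.valuation_intCast_le_one v _
      · rw [map_zero]
        exact zero_le
  have key := transport468 hφ M g₀ (a := ((p : ℚ))⁻¹) 0 hpi0
    (p * x) (y' := p * y) (mul_ne_zero hpR hy.ne') k k'
    (locFinK (vP p hp) (ut ((p : ℚ))⁻¹ 0 1))
    (fun w => by rw [locFinK_apply, infCompHom_locFin]) hfin
  have ex : ((((p : ℚ))⁻¹ : ℚ) : ℝ) * (p * x) + ((0 : ℚ) : ℝ) = x := by
    rw [Rat.cast_zero, add_zero, Rat.cast_inv, Rat.cast_natCast, inv_mul_cancel_left₀ hpR]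
  have ey : ((((p : ℚ))⁻¹ : ℚ) : ℝ) * (p * y) = y := by
    rw [Rat.cast_inv, Rat.cast_natCast, inv_mul_cancel_left₀ hpR]
  rw [ex, ey] at key
  exact key

/-- The Hecke relation, function form. -/
theorem U468_hecke {p : ℕ} (hp : p.Prime) (hpM : ¬ p ∣ M) (κ : (ZMod M)ˣ) (x y : ℝ)
    (hy : 0 < y) :
    ∑ j ∈ Finset.range p, U468 φ M g₀ (κ * unitCls M p) ((x + j * M) / p) (y / p)
        + bOf π p * U468 φ M g₀ (κ * (unitCls M p)⁻¹) (p * x) (p * y)
      = ((Real.sqrt p : ℝ) : ℂ) * aOf π p * U468 φ M g₀ κ x y := by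
  have hlev : ¬ (vP p hp).asIdeal ∣ π.level := not_dvd_level_vP468 π.level hM.dvd hp hpM
  have key := heckeSumQ468 π φ hφ p hp hlev M hpM
    (bInf wQ_isReal x y * dK468 M (hrep468 M κ⁻¹) * g1_468 M g₀)
  rw [U468_last_term hφ hM hp hpM κ x y hy,
    Finset.sum_congr rfl (fun j _ => U468_sum_term hφ hM hp hpM κ x y hy j)] at key
  rw [aOf_prime π hp, bOf_prime π hp]
  exact key

/-- The base point. -/
theorem U468_base : U468 φ M g₀ 1 0 1 = φ g₀ := by
  unfold U468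
  have hM0 := hM.ne_zero
  set k := hrep468 M (1 : (ZMod M)ˣ)⁻¹ with hkdef
  have hk : Nat.Coprime k M := hrep468_coprime hM0 _
  have hdvd : (M : ℤ) ∣ (k : ℤ) - 1 := by
    apply int_dvd_of_zmod468
    push_cast
    rw [hkdef, hrep468_cast hM0, inv_one, Units.val_one, sub_self]
  have hb : bInf (K := ℚ) wQ_isReal 0 1 = 1 := by
    rw [bInf, bGL_zero_one, map_one]
  rw [hb]
  refine phi_congr hφ.left_inv hφ.level_inv 1 _ _ (fun w => ?_) (fun v => ?_)
  · rw [map_mul, map_mul, map_one, map_one, infCompHom_dK468, infCompHom_g1_468, one_mul]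
  · rw [map_mul, map_mul, map_one, map_one, inv_one, mul_one, one_mul]
    by_cases hv : v ∈ TM468 M
    · rw [finCompHom_g1_468_mem g₀ hv, ← mul_assoc]
      refine hM.conj v _ ?_
      rw [finCompHom_dK468_mem k hv]
      refine near_ratFin_ut (valuation_eq_one_of_coprime v hk hv) (map_one _) ?_ ?_ ?_
      · have e : (k : ℚ) - 1 = ((((k : ℤ) - 1 : ℤ)) : ℚ) := by
          push_cast
          ring
        rw [e]
        exact valuation_le_of_int_dvd468 v hdvd
      · rw [map_zero]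
        exact zero_le
      · rw [sub_self, map_zero]
        exact zero_le
    · rw [finCompHom_g1_468_notMem g₀ hv, finCompHom_dK468_notMem k hv, mul_one, mul_one]
      have hv1 := valuation_eq_one_of_notMem468 hv
      refine locLevel_of_near_nat v ?_
      have hn : Near v 1 (finCompHom v g₀)⁻¹ :=
        (near_of_integralBoth468 (hM.integral v hv1)).inv
      refine hn.mono ?_
      have := valuation_le_of_dvd v hM.dvd
      rwa [hv1] at this

/-- CONTINUITY in `x`. -/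
theorem U468_cont_x (κ : (ZMod M)ˣ) (y : ℝ) (hy : 0 < y) :
    Continuous (fun x : ℝ => U468 φ M g₀ κ x y) := by
  have h := continuousOn_comp_bInf (K := ℚ) wQ_isReal hφ.cont
    (dK468 M (hrep468 M κ⁻¹) * g1_468 M g₀)
  have h2 : Continuous (fun x : ℝ => ((x, y) : ℝ × ℝ)) := by fun_prop
  have h3 := h.comp_continuous h2 (fun x => hy.ne')
  refine h3.congr (fun x => ?_)
  unfold U468
  rw [Function.comp_apply, mul_assoc]

/-- CONTINUITY in `y`. -/
theorem U468_cont_y (κ : (ZMod M)ˣ) (x : ℝ) :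
    ContinuousOn (fun y : ℝ => U468 φ M g₀ κ x y) (Set.Ioi 0) := by
  have h := continuousOn_comp_bInf (K := ℚ) wQ_isReal hφ.cont
    (dK468 M (hrep468 M κ⁻¹) * g1_468 M g₀)
  have h2 : ContinuousOn (fun y : ℝ => ((x, y) : ℝ × ℝ)) (Set.Ioi 0) := by fun_prop
  have h3 := h.comp h2 (fun y hy => (ne_of_gt (Set.mem_Ioi.1 hy) : y ≠ 0))
  refine h3.congr (fun y _ => ?_)
  unfold U468
  rw [Function.comp_apply, mul_assoc]

end Family

/-! ## The sub-leaf -/

/-- **Sub-leaf `HoroC` (MS4b) of tower T8**, VERBATIM. -/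
theorem horoC468 : HoroC := by
  intro π φ hφ g₀ L hL
  obtain ⟨M, hLM, hM⟩ := exists_lvl468 π.level π.level_ne_bot g₀ L hL
  obtain ⟨C, hC⟩ := hφ.bdd
  refine ⟨M, U468 φ M g₀, C, hLM, ?_, U468_base hφ hM⟩
  exact
    { M_pos := Nat.pos_of_ne_zero hM.ne_zero
      cont_x := fun κ y hy => U468_cont_x hφ hM κ y hy
      cont_y := fun κ x => U468_cont_y hφ hM κ x
      bdd := fun κ x y _ => hC _
      periodic := fun κ x y hy => U468_periodic hφ hM κ x y hy
      hecke := fun p hp hpM κ x y hy => U468_hecke hφ hM hp hpM κ x y hy }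

end Fermat.Agent.LT.T8.H468

end
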