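import Fermat.Agent.LT.T8.Closed
import Fermat.Agent.LT.T8.H468.Horo

/-!
# Row LT, tower T8 CLOSED: the wall leaf `PAR556` (helper468, OFF-MAIN)

`par556_468 : Fermat.Agent.LT.H556.WT.PAR556` (PROVED, no hole), the wall leaf of the frozen
skeleton origin/helper556@0fa0be5a0, VERBATIM, from `T8.top_of_open` (helper19, `T8/Closed.lean`)
and `horoC468` (`T8/H468/Horo.lean`).  Closed leaves inside: `centralEven556_h468` (helper468),
`heckeSeqC47`, `horoCoeffC47` (helper47), `CoeffData.msBound` (helper51), `T8.top` (helper19).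
-/

set_option autoImplicit false

namespace Fermat.Agent.LT.T8.H468

/-- The open part of tower T8 is empty. -/
theorem open468 : Fermat.Agent.LT.T8.Open := ⟨horoC468⟩

/-- **The wall leaf `PAR556`.** -/
theorem par556_468 : Fermat.Agent.LT.H556.WT.PAR556 :=
  Fermat.Agent.LT.T8.top_of_open open468

end Fermat.Agent.LT.T8.H468
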