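import Fermat.Agent.LT.T8.H468.Core
import Fermat.Agent.LT.H19.Par556

/-!
# Row LT, tower T8, sub-leaf P-A `CentralEven556` (helper468, OFF-MAIN)

`centralEven556_h468 : Fermat.Agent.LT.H19.CentralEven556` (PROVED, no hole).

From the relation `bprod468_eq_one` (`Core.lean`): with `N = absNorm (level)`, the function
`m ↦ ∏_{p ∣ m} b_p` (with multiplicity) on the natural numbers prime to `N` depends only on the
class of `m` modulo `N`, is multiplicative and takes the value `1` on the classes `± 1`.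
No density theorem is needed: every class of units has a positive representative.
-/

set_option autoImplicit false

open IsDedekindDomain NumberField AutomorphicForm
open scoped MatrixGroups

noncomputable section

namespace Fermat.Agent.LT.T8.H468

open Fermat.Agent.LT.H556.A0
open Rat.HeightOneSpectrum
open scoped Classical

/-! ## The completely multiplicative function `bnat468` -/

/-- `∏ b_p` over the prime factors of `m` (with multiplicity). -/
def bnat468 (π : HeckeEigensystem ℚ ℂ) (m : ℕ) : ℂ := bprod468 π m.primeFactorsList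

theorem bprod468_perm (π : HeckeEigensystem ℚ ℂ) {L L' : List ℕ} (h : L.Perm L') :
    bprod468 π L = bprod468 π L' :=
  (h.map _).prod_eq

theorem bprod468_append (π : HeckeEigensystem ℚ ℂ) (L L' : List ℕ) :
    bprod468 π (L ++ L') = bprod468 π L * bprod468 π L' := by
  unfold bprod468
  rw [List.map_append, List.prod_append]

theorem bnat468_mul (π : HeckeEigensystem ℚ ℂ) {a b : ℕ} (ha : a ≠ 0) (hb : b ≠ 0) :
    bnat468 π (a * b) = bnat468 π a * bnat468 π b := by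
  unfold bnat468
  rw [bprod468_perm π (Nat.perm_primeFactorsList_mul ha hb), bprod468_append]

theorem bnat468_prime (π : HeckeEigensystem ℚ ℂ) {p : ℕ} (hp : p.Prime) :
    bnat468 π p = π.b (plc468 p) := by
  unfold bnat468
  rw [Nat.primeFactorsList_prime hp, bprod468_cons, bprod468_nil, mul_one]

/-- The relation for natural numbers: `ε m ≡ 1 mod N` with `ε = ± 1` gives `bnat468 π m = 1`. -/
theorem bnat468_eq_one (π : HeckeEigensystem ℚ ℂ) (φ : G ℚ → ℂ) (hφ : IsSph0CuspFormFor π φ)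
    (N : ℕ) (hN0 : N ≠ 0) (hN : ((N : ℕ) : 𝓞 ℚ) ∈ π.level)
    (m : ℕ) (hm : m ≠ 0) (ε : ℤ) (hε : ε = 1 ∨ ε = -1)
    (hcong : (N : ℤ) ∣ ε * (m : ℕ) - 1) : bnat468 π m = 1 := by
  unfold bnat468
  apply bprod468_eq_one π φ hφ N hN0 hN m.primeFactorsList _ ε hε
  · rw [Nat.prod_primeFactorsList hm]
    exact hcong
  · intro p hp
    have hpp : p.Prime := Nat.prime_of_mem_primeFactorsList hp
    refine ⟨hpp, ?_⟩
    intro hpN
    have hpm : p ∣ m := Nat.dvd_of_mem_primeFactorsList hp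
    have h1 : (p : ℤ) ∣ ε * (m : ℕ) - 1 :=
      dvd_trans (Int.natCast_dvd_natCast.2 hpN) hcong
    have h2 : (p : ℤ) ∣ ε * (m : ℕ) :=
      Dvd.dvd.mul_left (Int.natCast_dvd_natCast.2 hpm) ε
    have h3 : (p : ℤ) ∣ 1 := by
      have h4 := dvd_sub h2 h1
      rwa [sub_sub_cancel] at h4
    have h5 : p ∣ 1 := by exact_mod_cast h3
    exact hpp.one_lt.ne' (Nat.dvd_one.1 h5)

/-! ## Representatives of the classes of units -/

/-- A positive representative of a class of units modulo `N`. -/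
def rep468 (N : ℕ) (u : (ZMod N)ˣ) : ℕ := (u : ZMod N).val + N

theorem rep468_ne_zero {N : ℕ} (hN0 : N ≠ 0) (u : (ZMod N)ˣ) : rep468 N u ≠ 0 := by
  unfold rep468
  omega

theorem rep468_cast {N : ℕ} (hN0 : N ≠ 0) (u : (ZMod N)ˣ) :
    ((rep468 N u : ℕ) : ZMod N) = (u : ZMod N) := by
  have : NeZero N := ⟨hN0⟩
  unfold rep468
  rw [Nat.cast_add, ZMod.natCast_zmod_val, ZMod.natCast_self, add_zero]

/-- `bnat468` depends only on the class modulo `N` (on the classes of units). -/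
theorem bnat468_congr (π : HeckeEigensystem ℚ ℂ) (φ : G ℚ → ℂ) (hφ : IsSph0CuspFormFor π φ)
    (N : ℕ) (hN0 : N ≠ 0) (hN : ((N : ℕ) : 𝓞 ℚ) ∈ π.level)
    (u : (ZMod N)ˣ) (m m' : ℕ) (hm : m ≠ 0) (hm' : m' ≠ 0)
    (h : ((m : ℕ) : ZMod N) = (u : ZMod N)) (h' : ((m' : ℕ) : ZMod N) = (u : ZMod N)) :
    bnat468 π m = bnat468 π m' := by
  have hr : rep468 N u⁻¹ ≠ 0 := rep468_ne_zero hN0 _
  have key : ∀ k : ℕ, k ≠ 0 → ((k : ℕ) : ZMod N) = (u : ZMod N) →
      bnat468 π (rep468 N u⁻¹) * bnat468 π k = 1 := by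
    intro k hk hku
    rw [← bnat468_mul π hr hk]
    apply bnat468_eq_one π φ hφ N hN0 hN _ (mul_ne_zero hr hk) 1 (Or.inl rfl)
    apply (ZMod.intCast_eq_intCast_iff_dvd_sub 1 _ N).1
    push_cast
    rw [rep468_cast hN0, hku, one_mul, Units.inv_mul]
  have h1 := key m hm h
  have h2 := key m' hm' h'
  have h3 : bnat468 π (rep468 N u⁻¹) ≠ 0 := by
    intro h0
    rw [h0, zero_mul] at h1
    exact zero_ne_one h1
  exact mul_left_cancel₀ h3 (h1.trans h2.symm)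

/-! ## The character -/

/-- The character on the units, with values in `ℂ`. -/
def chi0_468 (π : HeckeEigensystem ℚ ℂ) (φ : G ℚ → ℂ) (hφ : IsSph0CuspFormFor π φ)
    (N : ℕ) (hN0 : N ≠ 0) (hN : ((N : ℕ) : 𝓞 ℚ) ∈ π.level) : (ZMod N)ˣ →* ℂ where
  toFun u := bnat468 π (rep468 N u)
  map_one' := by
    apply bnat468_eq_one π φ hφ N hN0 hN _ (rep468_ne_zero hN0 _) 1 (Or.inl rfl)
    apply (ZMod.intCast_eq_intCast_iff_dvd_sub 1 _ N).1
    push_cast
    rw [rep468_cast hN0, one_mul, Units.val_one]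
  map_mul' u v := by
    rw [← bnat468_mul π (rep468_ne_zero hN0 u) (rep468_ne_zero hN0 v)]
    apply bnat468_congr π φ hφ N hN0 hN (u * v) _ _ (rep468_ne_zero hN0 _)
      (mul_ne_zero (rep468_ne_zero hN0 u) (rep468_ne_zero hN0 v)) (rep468_cast hN0 _)
    rw [Nat.cast_mul, rep468_cast hN0, rep468_cast hN0, Units.val_mul]

theorem chi0_468_apply (π : HeckeEigensystem ℚ ℂ) (φ : G ℚ → ℂ) (hφ : IsSph0CuspFormFor π φ)
    (N : ℕ) (hN0 : N ≠ 0) (hN : ((N : ℕ) : 𝓞 ℚ) ∈ π.level) (u : (ZMod N)ˣ) :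
    chi0_468 π φ hφ N hN0 hN u = bnat468 π (rep468 N u) := rfl

/-- The Dirichlet character. -/
def chi468 (π : HeckeEigensystem ℚ ℂ) (φ : G ℚ → ℂ) (hφ : IsSph0CuspFormFor π φ)
    (N : ℕ) (hN0 : N ≠ 0) (hN : ((N : ℕ) : 𝓞 ℚ) ∈ π.level) : DirichletCharacter ℂ N :=
  MulChar.ofUnitHom (chi0_468 π φ hφ N hN0 hN).toHomUnits

theorem chi468_unit (π : HeckeEigensystem ℚ ℂ) (φ : G ℚ → ℂ) (hφ : IsSph0CuspFormFor π φ)
    (N : ℕ) (hN0 : N ≠ 0) (hN : ((N : ℕ) : 𝓞 ℚ) ∈ π.level) (u : (ZMod N)ˣ) :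
    chi468 π φ hφ N hN0 hN (u : ZMod N) = bnat468 π (rep468 N u) := by
  unfold chi468
  rw [MulChar.ofUnitHom_coe, MonoidHom.coe_toHomUnits, chi0_468_apply]

theorem chi468_neg_one (π : HeckeEigensystem ℚ ℂ) (φ : G ℚ → ℂ) (hφ : IsSph0CuspFormFor π φ)
    (N : ℕ) (hN0 : N ≠ 0) (hN : ((N : ℕ) : 𝓞 ℚ) ∈ π.level) :
    chi468 π φ hφ N hN0 hN (-1) = 1 := by
  have h1 : (-1 : ZMod N) = (((-1 : (ZMod N)ˣ) : (ZMod N)ˣ) : ZMod N) := by
    rw [Units.val_neg, Units.val_one]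
  rw [h1, chi468_unit]
  apply bnat468_eq_one π φ hφ N hN0 hN _ (rep468_ne_zero hN0 _) (-1) (Or.inr rfl)
  apply (ZMod.intCast_eq_intCast_iff_dvd_sub 1 _ N).1
  push_cast
  rw [rep468_cast hN0, Units.val_neg, Units.val_one]
  ring

theorem chi468_prime (π : HeckeEigensystem ℚ ℂ) (φ : G ℚ → ℂ) (hφ : IsSph0CuspFormFor π φ)
    (N : ℕ) (hN0 : N ≠ 0) (hN : ((N : ℕ) : 𝓞 ℚ) ∈ π.level) {p : ℕ} (hp : p.Prime)
    (hpN : ¬ p ∣ N) :
    chi468 π φ hφ N hN0 hN (p : ZMod N) = π.b (plc468 p) := by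
  have hcop : Nat.Coprime p N := (Nat.Prime.coprime_iff_not_dvd hp).2 hpN
  have h1 : ((p : ℕ) : ZMod N) = ((ZMod.unitOfCoprime p hcop : (ZMod N)ˣ) : ZMod N) :=
    (ZMod.coe_unitOfCoprime p hcop).symm
  rw [h1, chi468_unit, ← bnat468_prime π hp]
  exact bnat468_congr π φ hφ N hN0 hN (ZMod.unitOfCoprime p hcop) _ _ (rep468_ne_zero hN0 _)
    hp.ne_zero (rep468_cast hN0 _) h1

/-! ## The sub-leaf -/

/-- **Sub-leaf P-A of tower T8** (`Par556.lean`), VERBATIM. -/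
theorem centralEven556_h468 : Fermat.Agent.LT.H19.CentralEven556 := by
  intro π hπ
  obtain ⟨φ, hφ⟩ := hπ
  have hN0 : Ideal.absNorm π.level ≠ 0 := by
    intro h0
    exact π.level_ne_bot (Ideal.absNorm_eq_zero_iff.1 h0)
  have hN : (((Ideal.absNorm π.level : ℕ) : ℕ) : 𝓞 ℚ) ∈ π.level := Ideal.absNorm_mem π.level
  refine ⟨Ideal.absNorm π.level, chi468 π φ hφ _ hN0 hN, hN0, chi468_neg_one π φ hφ _ hN0 hN, ?_⟩
  intro p hp hpN w hw
  rw [eq_plc468_of_mem hp w hw]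
  exact (chi468_prime π φ hφ _ hN0 hN hp hpN).symm

end Fermat.Agent.LT.T8.H468

end
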