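import Fermat.Agent.LT.T8.H468.Pred

/-!
# Row LT, tower T8, sub-leaf P-A: the relation `∏ b(p) = 1` (helper468, OFF-MAIN)

For a cusp form `φ` in the sense of `A0.IsSph0CuspFormFor π φ`, a natural number `N ≠ 0` in the
level and a list `L` of primes not dividing `N` with `± ∏ L ≡ 1 mod N`:
`∏_{p ∈ L} π.b (place over p) = 1`.

Proof: the rational scalar `q = ± ∏ L` acts trivially on the left; as an idele
`q = q_∞ · ∏_{p ∈ L} p_p · u`, `u` in the level group; `q_∞` acts trivially (positive scalars and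
`-1 ∈ SO(2)`), `p_p` acts by `π.b`.
-/

set_option autoImplicit false

open IsDedekindDomain NumberField AutomorphicForm
open scoped MatrixGroups

noncomputable section

namespace Fermat.Agent.LT.T8.H468

open Fermat.Agent.LT.H556.A0
open Rat.HeightOneSpectrum
open scoped Classical

/-! ## Places over primes -/

/-- The place of `ℚ` over `p` (a default place when `p` is not prime). -/
def plc468 (p : ℕ) : HeightOneSpectrum (𝓞 ℚ) :=
  if h : p.Prime then (primesEquiv (R := 𝓞 ℚ)).symm ⟨p, h⟩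
  else (primesEquiv (R := 𝓞 ℚ)).symm ⟨2, Nat.prime_two⟩

theorem natGenerator_plc468 {p : ℕ} (hp : p.Prime) : natGenerator (plc468 p) = p := by
  unfold plc468
  rw [dif_pos hp]
  exact congrArg Subtype.val
    (Equiv.apply_symm_apply (primesEquiv (R := 𝓞 ℚ)) ⟨p, hp⟩)

theorem plc468_natGenerator (v : HeightOneSpectrum (𝓞 ℚ)) : plc468 (natGenerator v) = v := by
  unfold plc468
  rw [dif_pos (prime_natGenerator v)]
  exact (primesEquiv (R := 𝓞 ℚ)).symm_apply_apply v

theorem eq_plc468_of_mem {p : ℕ} (hp : p.Prime) (w : HeightOneSpectrum (𝓞 ℚ))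
    (hw : ((p : ℕ) : 𝓞 ℚ) ∈ w.asIdeal) : w = plc468 p := by
  have h1 : natGenerator w ∣ p := (natCast_mem_asIdeal_iff468 w p).1 hw
  have h2 : natGenerator w = p :=
    (Nat.prime_dvd_prime_iff_eq (prime_natGenerator w) hp).1 h1
  rw [← h2, plc468_natGenerator]

theorem plc468_eq_iff {p : ℕ} (hp : p.Prime) (v : HeightOneSpectrum (𝓞 ℚ)) :
    plc468 p = v ↔ p = natGenerator v := by
  constructor
  · intro h
    rw [← h, natGenerator_plc468 hp]
  · intro h
    rw [h, plc468_natGenerator]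

theorem natGenerator_ne_zero468 (v : HeightOneSpectrum (𝓞 ℚ)) :
    ((natGenerator v : ℕ) : ℚ) ≠ 0 := by
  have := (prime_natGenerator v).ne_zero
  exact_mod_cast this

/-- The local idele `p_p`. -/
def loc468 (p : ℕ) : (Adl ℚ)ˣ :=
  locIdele468 (plc468 p) ((natGenerator (plc468 p) : ℕ) : ℚ) (natGenerator_ne_zero468 _)

theorem isScalarUniformizerAt_loc468 (p : ℕ) :
    IsScalarUniformizerAt (plc468 p) (sc468 (loc468 p)) :=
  isScalarUniformizerAt468 (plc468 p) (natGenerator_ne_zero468 _)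

/-- A place over a prime not dividing `N` does not divide the level. -/
theorem not_dvd_level468 (𝔫 : Ideal (𝓞 ℚ)) (N : ℕ) (hN : ((N : ℕ) : 𝓞 ℚ) ∈ 𝔫) {p : ℕ}
    (hp : p.Prime) (hpN : ¬ p ∣ N) : ¬ (plc468 p).asIdeal ∣ 𝔫 := by
  intro hd
  have h1 : ((N : ℕ) : 𝓞 ℚ) ∈ (plc468 p).asIdeal := Ideal.le_of_dvd hd hN
  have h2 := (natCast_mem_asIdeal_iff468 _ N).1 h1
  rw [natGenerator_plc468 hp] at h2
  exact hpN h2

/-! ## Components of inverses -/

theorem inv_snd468 (u : (Adl ℚ)ˣ) (v : HeightOneSpectrum (𝓞 ℚ)) :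
    ((u⁻¹ : (Adl ℚ)ˣ) : Adl ℚ).2 v = ((u : Adl ℚ).2 v)⁻¹ := by
  have h : ((u⁻¹ : (Adl ℚ)ˣ) : Adl ℚ).2 v * (u : Adl ℚ).2 v = 1 := by
    rw [← mul_snd468, Units.inv_mul, one_snd468]
  exact eq_inv_of_mul_eq_one_left h

theorem inv_fst468 (u : (Adl ℚ)ˣ) (w : InfinitePlace ℚ) :
    ((u⁻¹ : (Adl ℚ)ˣ) : Adl ℚ).1 w = ((u : Adl ℚ).1 w)⁻¹ := by
  have h : ((u⁻¹ : (Adl ℚ)ˣ) : Adl ℚ).1 w * (u : Adl ℚ).1 w = 1 := by
    rw [← mul_fst468, Units.inv_mul, one_fst468]
  exact eq_inv_of_mul_eq_one_left h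

/-! ## Components of the product of the local ideles of a list -/

/-- The part of `∏ L` at `v`. -/
def tv468 (v : HeightOneSpectrum (𝓞 ℚ)) : List ℕ → ℕ
  | [] => 1
  | p :: L => (if plc468 p = v then natGenerator v else 1) * tv468 v L

/-- The part of `∏ L` prime to `v`. -/
def tq468 (v : HeightOneSpectrum (𝓞 ℚ)) : List ℕ → ℕ
  | [] => 1
  | p :: L => (if plc468 p = v then 1 else p) * tq468 v L

theorem tv468_mul_tq468 (v : HeightOneSpectrum (𝓞 ℚ)) (L : List ℕ) (hL : ∀ p ∈ L, p.Prime) :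
    tv468 v L * tq468 v L = L.prod := by
  induction L with
  | nil => simp [tv468, tq468]
  | cons p L ih =>
    have hp : p.Prime := hL p (List.mem_cons_self)
    have ih' := ih (fun r hr => hL r (List.mem_cons_of_mem _ hr))
    simp only [tv468, tq468, List.prod_cons]
    by_cases h : plc468 p = v
    · rw [if_pos h, if_pos h, one_mul, mul_assoc, ih', ← (plc468_eq_iff hp v).1 h]
    · rw [if_neg h, if_neg h, one_mul, mul_left_comm, ih']

theorem tv468_ne_zero (v : HeightOneSpectrum (𝓞 ℚ)) (L : List ℕ) : tv468 v L ≠ 0 := by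
  induction L with
  | nil => simp [tv468]
  | cons p L ih =>
    simp only [tv468]
    refine mul_ne_zero ?_ ih
    split_ifs
    · exact (prime_natGenerator v).ne_zero
    · exact one_ne_zero

theorem not_dvd_tq468 (v : HeightOneSpectrum (𝓞 ℚ)) (L : List ℕ) (hL : ∀ p ∈ L, p.Prime) :
    ¬ natGenerator v ∣ tq468 v L := by
  induction L with
  | nil =>
    simp only [tq468]
    exact (prime_natGenerator v).one_lt.ne' ∘ Nat.dvd_one.1
  | cons p L ih =>
    have hp : p.Prime := hL p (List.mem_cons_self)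
    have ih' := ih (fun r hr => hL r (List.mem_cons_of_mem _ hr))
    simp only [tq468]
    intro hd
    rcases (prime_natGenerator v).dvd_mul.1 hd with h | h
    · by_cases hpv : plc468 p = v
      · rw [if_pos hpv] at h
        exact (prime_natGenerator v).one_lt.ne' (Nat.dvd_one.1 h)
      · rw [if_neg hpv] at h
        exact hpv ((plc468_eq_iff hp v).2
          ((Nat.prime_dvd_prime_iff_eq (prime_natGenerator v) hp).1 h).symm)
    · exact ih' h

/-- If the prime under `v` divides `N` and no prime of `L` divides `N`, then `tq = ∏ L`. -/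
theorem tq468_eq_prod (v : HeightOneSpectrum (𝓞 ℚ)) (N : ℕ) (hv : natGenerator v ∣ N)
    (L : List ℕ) (hL : ∀ p ∈ L, p.Prime ∧ ¬ p ∣ N) : tq468 v L = L.prod := by
  induction L with
  | nil => simp [tq468]
  | cons p L ih =>
    have hp := hL p (List.mem_cons_self)
    have ih' := ih (fun r hr => hL r (List.mem_cons_of_mem _ hr))
    simp only [tq468, List.prod_cons]
    have hne : ¬ plc468 p = v := by
      intro h
      have := (plc468_eq_iff hp.1 v).1 h
      exact hp.2 (this ▸ hv)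
    rw [if_neg hne, ih']

/-- The product of the local ideles of a list. -/
def tprod468 (L : List ℕ) : (Adl ℚ)ˣ := (L.map loc468).prod

theorem tprod468_nil : tprod468 [] = 1 := rfl

theorem tprod468_cons (p : ℕ) (L : List ℕ) : tprod468 (p :: L) = loc468 p * tprod468 L := by
  unfold tprod468
  rw [List.map_cons, List.prod_cons]

theorem tprod468_fst (L : List ℕ) (w : InfinitePlace ℚ) :
    ((tprod468 L : (Adl ℚ)ˣ) : Adl ℚ).1 w = 1 := by
  induction L with
  | nil => rw [tprod468_nil, Units.val_one, one_fst468]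
  | cons p L ih =>
    rw [tprod468_cons, Units.val_mul, mul_fst468, ih, mul_one]
    unfold loc468
    rw [locIdele468_val, locPart468_fst]

theorem tprod468_snd (L : List ℕ) (v : HeightOneSpectrum (𝓞 ℚ)) :
    ((tprod468 L : (Adl ℚ)ˣ) : Adl ℚ).2 v
      = algebraMap ℚ (v.adicCompletion ℚ) ((tv468 v L : ℕ) : ℚ) := by
  induction L with
  | nil =>
    rw [tprod468_nil, Units.val_one, one_snd468]
    simp [tv468]
  | cons p L ih =>
    rw [tprod468_cons, Units.val_mul, mul_snd468, ih]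
    unfold loc468
    rw [locIdele468_val]
    simp only [tv468]
    by_cases h : plc468 p = v
    · subst h
      rw [locPart468_snd_same, if_pos rfl, ← map_mul]
      push_cast
      rfl
    · rw [locPart468_snd_ne _ _ _ (Ne.symm h), if_neg h, one_mul, one_mul]

/-! ## The level condition for an integer unit at `v` -/

/-- For an integer `z` prime to `v` with `v ∤ N` or `N ∣ z - 1`: `z - 1` and `z⁻¹ - 1` lie in the
closure of the level at `v`. -/
theorem level_cond468 (𝔫 : Ideal (𝓞 ℚ)) (N : ℕ) (hN0 : N ≠ 0) (hN : ((N : ℕ) : 𝓞 ℚ) ∈ 𝔫)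
    (v : HeightOneSpectrum (𝓞 ℚ)) (z : ℤ) (hz : ¬ (natGenerator v : ℤ) ∣ z)
    (h : ¬ natGenerator v ∣ N ∨ (N : ℤ) ∣ z - 1) :
    algebraMap ℚ (v.adicCompletion ℚ) (z : ℚ) - 1 ∈ idealClosure 𝔫 v ∧
      algebraMap ℚ (v.adicCompletion ℚ) ((z : ℚ)⁻¹) - 1 ∈ idealClosure 𝔫 v := by
  have hNq : ((N : ℕ) : ℚ) ≠ 0 := by exact_mod_cast hN0
  have hz0 : (z : ℚ) ≠ 0 := by
    intro h0
    have : z = 0 := by exact_mod_cast h0
    exact hz (this ▸ dvd_zero _)
  have hvz : v.valuation ℚ (z : ℚ) = 1 := valuation_intCast_eq_one468 v z hz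
  -- the key: `x = (z - 1) / N` is `v`-integral
  have hx : v.valuation ℚ (((z : ℚ) - 1) / (N : ℚ)) ≤ 1 := by
    rcases h with h | h
    · have hvN : v.valuation ℚ ((N : ℕ) : ℚ) = 1 := valuation_natCast_eq_one468 v N h
      rw [map_div₀, hvN, div_one]
      have := valuation_intCast_le_one468 v (z - 1)
      simpa using this
    · obtain ⟨k, hk⟩ := h
      have : ((z : ℚ) - 1) / (N : ℚ) = (k : ℚ) := by
        have hk' : (z : ℚ) - 1 = (N : ℚ) * (k : ℚ) := by exact_mod_cast hk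
        rw [hk']
        field_simp
      rw [this]
      exact valuation_intCast_le_one468 v k
  have hx' : v.valuation ℚ (-(((z : ℚ) - 1) / (N : ℚ)) / (z : ℚ)) ≤ 1 := by
    rw [map_div₀, hvz, div_one, Valuation.map_neg]
    exact hx
  have hmap : algebraMap (𝓞 ℚ) ℚ ((N : ℕ) : 𝓞 ℚ) = ((N : ℕ) : ℚ) := map_natCast _ N
  constructor
  · have h1 := mem_idealClosure468 𝔫 v ((N : ℕ) : 𝓞 ℚ) hN _ hx
    rw [hmap] at h1
    have h2 : ((N : ℕ) : ℚ) * (((z : ℚ) - 1) / (N : ℚ)) = (z : ℚ) - 1 := by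
      field_simp
    rw [h2, map_sub, map_one] at h1
    exact h1
  · have h1 := mem_idealClosure468 𝔫 v ((N : ℕ) : 𝓞 ℚ) hN _ hx'
    rw [hmap] at h1
    have h2 : ((N : ℕ) : ℚ) * (-(((z : ℚ) - 1) / (N : ℚ)) / (z : ℚ)) = (z : ℚ)⁻¹ - 1 := by
      field_simp
      ring
    rw [h2, map_sub, map_one] at h1
    exact h1

/-! ## The Hecke relation along a list -/

/-- The product of the `S_p`-eigenvalues along a list. -/
def bprod468 (π : HeckeEigensystem ℚ ℂ) (L : List ℕ) : ℂ := (L.map (fun p => π.b (plc468 p))).prod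

theorem bprod468_nil (π : HeckeEigensystem ℚ ℂ) : bprod468 π [] = 1 := rfl

theorem bprod468_cons (π : HeckeEigensystem ℚ ℂ) (p : ℕ) (L : List ℕ) :
    bprod468 π (p :: L) = π.b (plc468 p) * bprod468 π L := by
  unfold bprod468
  rw [List.map_cons, List.prod_cons]

theorem hecke_list468 (π : HeckeEigensystem ℚ ℂ) (φ : G ℚ → ℂ) (hφ : IsSph0CuspFormFor π φ)
    (L : List ℕ) (hL : ∀ p ∈ L, ¬ (plc468 p).asIdeal ∣ π.level) (g : G ℚ) :
    φ (g * sc468 (tprod468 L)) = bprod468 π L * φ g := by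
  induction L generalizing g with
  | nil => rw [tprod468_nil, map_one, mul_one, bprod468_nil, one_mul]
  | cons p L ih =>
    have hp := hL p (List.mem_cons_self)
    have ih' := ih (fun r hr => hL r (List.mem_cons_of_mem _ hr))
    rw [tprod468_cons, map_mul, ← mul_assoc, ih', bprod468_cons,
      (hφ.hecke (plc468 p) hp).2 _ (isScalarUniformizerAt_loc468 p) g]
    ring

/-! ## Invariance under the infinite part of a rational scalar -/

theorem arch_inv468 (π : HeckeEigensystem ℚ ℂ) (φ : G ℚ → ℂ) (hφ : IsSph0CuspFormFor π φ)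
    (q : ℚ) (hq : q ≠ 0) (g : G ℚ) : φ (g * sc468 (infIdele468 q hq)) = φ g := by
  rcases lt_or_gt_of_ne hq with h | h
  · -- `q < 0`: `q = (-1) * (-q)`
    have hnq : (0 : ℚ) < -q := neg_pos.2 h
    have hsplit : infIdele468 q hq
        = infIdele468 (-1) (by norm_num) * infIdele468 (-q) hnq.ne' := by
      apply Units.ext
      rw [Units.val_mul, infIdele468_val, infIdele468_val, infIdele468_val, ← infPart468_mul]
      congr 1
      ring
    rw [hsplit, map_mul, ← mul_assoc,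
      hφ.arch_scalar Rat.infinitePlace _ (isArchPosScalar468 _ (-q) hnq),
      hφ.arch_compact Rat.infinitePlace _ (isArchCompact_neg_one468 _)]
  · exact hφ.arch_scalar Rat.infinitePlace _ (isArchPosScalar468 _ q h) g

/-! ## The main relation -/

/-- The rational scalar matrix `q` in `GL₂(ℚ)`. -/
def gsc468 (q : ℚ) (hq : q ≠ 0) : GL (Fin 2) ℚ :=
  Units.map (Matrix.scalar (Fin 2) : ℚ →+* Matrix (Fin 2) (Fin 2) ℚ).toMonoidHom (Units.mk0 q hq)

theorem gsc468_coe (q : ℚ) (hq : q ≠ 0) :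
    ((gsc468 q hq : GL (Fin 2) ℚ) : Matrix (Fin 2) (Fin 2) ℚ) = Matrix.scalar (Fin 2) q := rfl

/-- **The relation.**  `N ≠ 0` in the level, `L` a list of primes not dividing `N`,
`ε ∏ L ≡ 1 mod N` with `ε = ± 1`: then `∏_{p ∈ L} b_p = 1`. -/
theorem bprod468_eq_one (π : HeckeEigensystem ℚ ℂ) (φ : G ℚ → ℂ) (hφ : IsSph0CuspFormFor π φ)
    (N : ℕ) (hN0 : N ≠ 0) (hN : ((N : ℕ) : 𝓞 ℚ) ∈ π.level)
    (L : List ℕ) (hL : ∀ p ∈ L, p.Prime ∧ ¬ p ∣ N)
    (ε : ℤ) (hε : ε = 1 ∨ ε = -1) (hcong : (N : ℤ) ∣ ε * (L.prod : ℕ) - 1) :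
    bprod468 π L = 1 := by
  obtain ⟨g₀, hg₀⟩ := hφ.ne_zero
  have hLp : ∀ p ∈ L, p.Prime := fun p hp => (hL p hp).1
  have hprod0 : L.prod ≠ 0 := by
    rw [← tv468_mul_tq468 (plc468 2) L hLp]
    exact mul_ne_zero (tv468_ne_zero _ _)
      (fun h0 => not_dvd_tq468 (plc468 2) L hLp (h0 ▸ dvd_zero _))
  have hε0 : (ε : ℚ) ≠ 0 := by
    rcases hε with h | h <;> rw [h] <;> norm_num
  set q : ℚ := (ε : ℚ) * ((L.prod : ℕ) : ℚ) with hqdef
  have hq : q ≠ 0 := mul_ne_zero hε0 (by exact_mod_cast hprod0)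
  -- the unit part
  set u : (Adl ℚ)ˣ := finIdele468 q hq * (tprod468 L)⁻¹ with hudef
  have hdecomp : infIdele468 q hq * finIdele468 q hq
      = infIdele468 q hq * tprod468 L * u := by
    rw [hudef, mul_assoc, mul_comm (finIdele468 q hq), mul_inv_cancel_left]
  -- components of `u`
  have hu1 : ∀ w : InfinitePlace ℚ, (u : Adl ℚ).1 w = 1 := by
    intro w
    rw [hudef, Units.val_mul, mul_fst468, inv_fst468, tprod468_fst, finIdele468_val,
      finPart468_fst, inv_one, mul_one]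
  have hz : ∀ v : HeightOneSpectrum (𝓞 ℚ),
      q / ((tv468 v L : ℕ) : ℚ) = ((ε * (tq468 v L : ℕ) : ℤ) : ℚ) := by
    intro v
    have h1 : ((tv468 v L : ℕ) : ℚ) ≠ 0 := by exact_mod_cast tv468_ne_zero v L
    have h2 : ((L.prod : ℕ) : ℚ) = ((tv468 v L : ℕ) : ℚ) * ((tq468 v L : ℕ) : ℚ) := by
      exact_mod_cast (tv468_mul_tq468 v L hLp).symm
    rw [hqdef, h2]
    push_cast
    field_simp
  have hu2 : ∀ v : HeightOneSpectrum (𝓞 ℚ), (u : Adl ℚ).2 v
      = algebraMap ℚ (v.adicCompletion ℚ) ((ε * (tq468 v L : ℕ) : ℤ) : ℚ) := by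
    intro v
    rw [hudef, Units.val_mul, mul_snd468, inv_snd468, tprod468_snd, finIdele468_val,
      finPart468_snd, ← map_inv₀, ← map_mul, ← div_eq_mul_inv, hz v]
  have hu3 : ∀ v : HeightOneSpectrum (𝓞 ℚ), ((u⁻¹ : (Adl ℚ)ˣ) : Adl ℚ).2 v
      = algebraMap ℚ (v.adicCompletion ℚ) (((ε * (tq468 v L : ℕ) : ℤ) : ℚ)⁻¹) := by
    intro v
    rw [inv_snd468, hu2 v, map_inv₀]
  -- the level condition
  have hcond : ∀ v : HeightOneSpectrum (𝓞 ℚ),
      algebraMap ℚ (v.adicCompletion ℚ) ((ε * (tq468 v L : ℕ) : ℤ) : ℚ) - 1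
          ∈ idealClosure π.level v ∧
        algebraMap ℚ (v.adicCompletion ℚ) (((ε * (tq468 v L : ℕ) : ℤ) : ℚ)⁻¹) - 1
          ∈ idealClosure π.level v := by
    intro v
    apply level_cond468 π.level N hN0 hN v
    · intro hd
      have hd' : (natGenerator v : ℤ) ∣ (tq468 v L : ℕ) := by
        rcases hε with h | h
        · rw [h, one_mul] at hd
          exact hd
        · rw [h, neg_one_mul, dvd_neg] at hd
          exact hd
      exact not_dvd_tq468 v L hLp (Int.natCast_dvd_natCast.1 hd')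
    · by_cases hvN : natGenerator v ∣ N
      · right
        rw [tq468_eq_prod v N hvN L hL]
        exact hcong
      · left
        exact hvN
  have hlevel : InLevelGroup π.level (sc468 u) :=
    inLevelGroup_sc468 π.level u hu1 (fun v => by rw [hu2 v]; exact (hcond v).1)
      (fun v => by rw [hu3 v]; exact (hcond v).2)
  -- the chain of invariances
  have hgood : ∀ p ∈ L, ¬ (plc468 p).asIdeal ∣ π.level := fun p hp =>
    not_dvd_level468 π.level N hN (hL p hp).1 (hL p hp).2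
  have h1 : φ (Matrix.GeneralLinearGroup.map (algebraMap ℚ (Adl ℚ)) (gsc468 q hq) * g₀) = φ g₀ :=
    hφ.left_inv (gsc468 q hq) g₀
  rw [map_scalar468 q hq (gsc468 q hq) (gsc468_coe q hq), sc468_comm, hdecomp, map_mul, map_mul,
    ← mul_assoc, ← mul_assoc, hφ.level_inv _ hlevel, hecke_list468 π φ hφ L hgood,
    arch_inv468 π φ hφ q hq] at h1
  have h2 : (bprod468 π L - 1) * φ g₀ = 0 := by
    rw [sub_mul, one_mul, h1, sub_self]
  rcases mul_eq_zero.1 h2 with h | h
  · exact sub_eq_zero.1 h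
  · exact absurd h hg₀

end Fermat.Agent.LT.T8.H468

end
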