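import Fermat.Agent.LT.H51.MS4E
import Fermat.Agent.LT.T8.H864.Coset

/-!
# Row LT, tower T8, sub-leaf `HoroC`, leaf HECKE-RAW (helper468, OFF-MAIN, shadow of helper864)

`heckeRawC468 : Fermat.Agent.LT.H51.MS4.HeckeRawC` (PROVED, no hole), VERBATIM vs
`LT/H51/MS4E.lean` (helper51): the two clauses of `A0.IsHeckeEigenAt` on the explicit coset system
of `T8/H864/Coset.lean` (helper864), with `absNorm (vP p) = p`.
-/

set_option autoImplicit false

open IsDedekindDomain NumberField AutomorphicForm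
open scoped MatrixGroups Classical WithZero

noncomputable section

namespace Fermat.Agent.LT.T8.H468

open Fermat.Agent.LT.H556.A0 Fermat.Agent.LT.T8.H864 Fermat.Agent.LT.H51.MS4

/-- The norm of the place over `p` is `p`. -/
theorem absNorm_vP468 (p : ℕ) (hp : p.Prime) : Ideal.absNorm (vP p hp).asIdeal = p := by
  have h1 : ∀ n : ℕ, Ideal.absNorm (vP p hp).asIdeal ∣ n ↔ p ∣ n := by
    intro n
    have h2 := intCast_mem_asIdeal_iff (vP p hp) (n : ℤ)
    have h3 := natCast_mem_iff (vP p hp) n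
    rw [natGenerator_vP] at h3
    rw [Int.cast_natCast] at h2
    rw [← h3, h2, Int.natCast_dvd_natCast]
  exact Nat.dvd_antisymm ((h1 p).2 dvd_rfl) ((h1 _).1 dvd_rfl)

/-- The two names of `[[a, b], [0, d]]`. -/
theorem triGL_eq_ut468 (a b d : ℚ) : triGL a b d = ut a b d := by
  unfold triGL ut
  split_ifs
  · rfl
  · rfl

theorem triAd_eq_locFinK_ut468 (v : HeightOneSpectrum (𝓞 ℚ)) (a b d : ℚ) :
    triAd v a b d = locFinK v (ut a b d) := by
  rw [triAd, triGL_eq_ut468]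

/-- The `T_p`-clause on the explicit coset system. -/
theorem heckeSumQ468 (π : HeckeEigensystem ℚ ℂ) (φ : G ℚ → ℂ) (hφ : IsSph0CuspFormFor π φ) :
    HeckeSumQ π φ := by
  intro p hp hlev M hpM g
  set v := vP p hp with hv
  have hq : Ideal.absNorm v.asIdeal = p := absNorm_vP468 p hp
  have hM0 : (M : ℤ) ≠ 0 := by
    intro h0
    apply hpM
    have : M = 0 := by exact_mod_cast h0
    rw [this]
    exact dvd_zero p
  have hcop : IsCoprime (-(M : ℤ)) ((Ideal.absNorm v.asIdeal : ℕ) : ℤ) := by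
    rw [hq, IsCoprime.neg_left_iff]
    have h1 : Nat.Coprime p M := (Nat.Prime.coprime_iff_not_dvd hp).2 hpM
    exact (Nat.isCoprime_iff_coprime.2 h1).symm
  have hsys := isHeckeCosetSystem_rat v hcop
  have hϖ := valuation_absNorm_rat v
  have hϖ0 : ((Ideal.absNorm v.asIdeal : ℕ) : ℚ) ≠ 0 := ne_zero_of_unif v hϖ
  have key := (hφ.hecke v hlev).1 _ hsys g
  have hnot : triAd v 1 0 ((Ideal.absNorm v.asIdeal : ℕ) : ℚ) ∉
      (resSet v (-(M : ℤ))).image
        (fun r => triAd v ((Ideal.absNorm v.asIdeal : ℕ) : ℚ) r 1) := by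
    intro hmem
    obtain ⟨r, -, hr⟩ := Finset.mem_image.1 hmem
    exact lo_ne_up v hϖ r hr.symm
  have hinj1 : Function.Injective
      (fun r : ℚ => triAd v ((Ideal.absNorm v.asIdeal : ℕ) : ℚ) r 1) :=
    triAd_injective_mid v (by simpa using hϖ0)
  have hinj2 : Function.Injective (fun j : ℕ => ((-(M : ℤ) * (j : ℤ) : ℤ) : ℚ)) := by
    intro j j' h
    have h0 : ((-(M : ℤ) * (j : ℤ) : ℤ) : ℚ) = ((-(M : ℤ) * (j' : ℤ) : ℤ) : ℚ) := h
    have h1 : -(M : ℤ) * (j : ℤ) = -(M : ℤ) * (j' : ℤ) := by exact_mod_cast h0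
    exact_mod_cast mul_left_cancel₀ (neg_ne_zero.2 hM0) h1
  rw [heckeSet, Finset.sum_insert hnot, Finset.sum_image (fun _ _ _ _ h => hinj1 h), resSet,
    Finset.sum_image (fun _ _ _ _ h => hinj2 h), hq] at key
  have e1 : φ (g * triAd v 1 0 ((p : ℕ) : ℚ)) = φ (g * locFinK v (ut (1 : ℚ) 0 (p : ℚ))) := by
    rw [triAd_eq_locFinK_ut468]
  have e2 : ∑ x ∈ Finset.range p, φ (g * triAd v ((p : ℕ) : ℚ) ((-(M : ℤ) * (x : ℤ) : ℤ) : ℚ) 1)
      = ∑ j ∈ Finset.range p, φ (g * locFinK v (ut (p : ℚ) (-((j : ℚ) * (M : ℚ))) 1)) := by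
    refine Finset.sum_congr rfl (fun j _ => ?_)
    rw [triAd_eq_locFinK_ut468]
    have e : ((-(M : ℤ) * (j : ℤ) : ℤ) : ℚ) = -((j : ℚ) * (M : ℚ)) := by
      push_cast
      ring
    rw [e]
  rw [e1, e2] at key
  rw [← key, add_comm]

/-- The `S_p`-clause for the scalar `p` at `p`. -/
theorem heckeScalarQ468 (π : HeckeEigensystem ℚ ℂ) (φ : G ℚ → ℂ) (hφ : IsSph0CuspFormFor π φ) :
    HeckeScalarQ π φ := by
  intro p hp hlev g
  set v := vP p hp with hv
  have hq : Ideal.absNorm v.asIdeal = p := absNorm_vP468 p hp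
  have hϖ := valuation_absNorm_rat v
  have key := (hφ.hecke v hlev).2 _ (isScalarUniformizerAt_triAd v hϖ) g
  rw [triAd_eq_locFinK_ut468, hq] at key
  exact key

/-- **Leaf HECKE-RAW** of `LT/H51/MS4E.lean`, VERBATIM. -/
theorem heckeRawC468 : HeckeRawC :=
  fun π φ hφ => ⟨heckeSumQ468 π φ hφ, heckeScalarQ468 π φ hφ⟩

end Fermat.Agent.LT.T8.H468

end
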