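import Fermat.Agent.LT.T8.H468.HeckeRaw

/-!
# Row LT, tower T8, sub-leaf `HoroC` (MS4b): the transport lemma (helper468, OFF-MAIN, shadow)

On `LT/H556/A0.lean` (556), `LT/T8/H864/{Local,Coset}.lean` (864), `LT/H51/MS4{A..E}.lean` (51).

* `Lvl468 𝔫 g₀ M`: `M` is a level of the base point `g₀` (`MS4.exists_level`), `exists_lvl468`.
* `dK468 M k`: the element `[[k, 0], [0, 1]]` at the places dividing `M`, `1` elsewhere.
* `g1_468 M g₀`: the components of `g₀` at the places dividing `M` and at infinity.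
* `transport468`: `φ (b(a x' + c, a y')_∞ d(k) g₁ h) = φ (b(x', y')_∞ d(k') g₁)` under local
  conditions; `near_dK468`: the local conditions at the places where `h` is trivial.
-/

set_option autoImplicit false

open IsDedekindDomain NumberField AutomorphicForm
open scoped MatrixGroups Classical WithZero

noncomputable section

namespace Fermat.Agent.LT.T8.H468

open Fermat.Agent.LT.H556.A0 Fermat.Agent.LT.T8.H864 Fermat.Agent.LT.H51.MS4

/-! ## Levels of a base point -/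

/-- `M` is a level of the base point `g₀`. -/
structure Lvl468 (𝔫 : Ideal (𝓞 ℚ)) (g₀ : G ℚ) (M : ℕ) : Prop where
  ne_zero : M ≠ 0
  dvd : Ideal.absNorm 𝔫 ∣ M
  integral : ∀ v : HeightOneSpectrum (𝓞 ℚ), v.valuation ℚ (M : ℚ) = 1 →
    IntegralBoth v (finCompHom v g₀)
  conj : ∀ (v : HeightOneSpectrum (𝓞 ℚ)) (Y : GL (Fin 2) (v.adicCompletion ℚ)),
    Near v (v.valuation ℚ (M : ℚ)) Y →
      LocLevel 𝔫 v ((finCompHom v g₀)⁻¹ * Y * finCompHom v g₀)

theorem exists_lvl468 (𝔫 : Ideal (𝓞 ℚ)) (h𝔫 : 𝔫 ≠ ⊥) (g₀ : G ℚ) (L : ℕ) (hL : L ≠ 0) :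
    ∃ M : ℕ, L ∣ M ∧ Lvl468 𝔫 g₀ M := by
  obtain ⟨M₀, hM0, hdvd, hint, hconj⟩ := exists_level 𝔫 h𝔫 g₀
  have hle : ∀ v : HeightOneSpectrum (𝓞 ℚ),
      v.valuation ℚ ((M₀ * L : ℕ) : ℚ) ≤ v.valuation ℚ (M₀ : ℚ) :=
    fun v => valuation_le_of_dvd v (dvd_mul_right M₀ L)
  refine ⟨M₀ * L, dvd_mul_left L M₀, mul_ne_zero hM0 hL, dvd_mul_of_dvd_left hdvd L, ?_, ?_⟩
  · intro v hv
    apply hint v
    exact le_antisymm (valuation_natCast_le_one v M₀) (hv ▸ hle v)
  · intro v Y hY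
    exact hconj v Y (hY.mono (hle v))

/-! ## The places dividing `M`, the twist `d(k)` and the cut base point -/

/-- The places dividing `M`. -/
def TM468 (M : ℕ) : Set (HeightOneSpectrum (𝓞 ℚ)) := {v | v.valuation ℚ (M : ℚ) < 1}

theorem mem_TM468 (M : ℕ) (v : HeightOneSpectrum (𝓞 ℚ)) :
    v ∈ TM468 M ↔ v.valuation ℚ (M : ℚ) < 1 := Iff.rfl

theorem valuation_eq_one_of_notMem468 {M : ℕ} {v : HeightOneSpectrum (𝓞 ℚ)}
    (hv : v ∉ TM468 M) : v.valuation ℚ (M : ℚ) = 1 :=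
  le_antisymm (valuation_natCast_le_one v M) (not_lt.1 hv)

/-- `[[k, 0], [0, 1]]` at the places dividing `M`. -/
def dK468 (M k : ℕ) : G ℚ := cut (TM468 M) False (diagG (ut (k : ℚ) 0 1))

theorem infCompHom_dK468 (M k : ℕ) (w : InfinitePlace ℚ) : infCompHom w (dK468 M k) = 1 :=
  infCompHom_cut_false _ _ _

theorem finCompHom_dK468_mem {M : ℕ} (k : ℕ) {v : HeightOneSpectrum (𝓞 ℚ)}
    (hv : v ∈ TM468 M) : finCompHom v (dK468 M k) = ratFin v (ut (k : ℚ) 0 1) := by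
  rw [dK468, finCompHom_cut_of_mem _ _ hv, finCompHom_diagG]

theorem finCompHom_dK468_notMem {M : ℕ} (k : ℕ) {v : HeightOneSpectrum (𝓞 ℚ)}
    (hv : v ∉ TM468 M) : finCompHom v (dK468 M k) = 1 := by
  rw [dK468, finCompHom_cut_of_notMem _ _ hv]

/-- The base point cut to the places dividing `M` and infinity. -/
def g1_468 (M : ℕ) (g₀ : G ℚ) : G ℚ := cut (TM468 M) True g₀

theorem infCompHom_g1_468 (M : ℕ) (g₀ : G ℚ) (w : InfinitePlace ℚ) :
    infCompHom w (g1_468 M g₀) = infCompHom w g₀ :=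
  infCompHom_cut_true _ _ _

theorem finCompHom_g1_468_mem {M : ℕ} (g₀ : G ℚ) {v : HeightOneSpectrum (𝓞 ℚ)}
    (hv : v ∈ TM468 M) : finCompHom v (g1_468 M g₀) = finCompHom v g₀ := by
  rw [g1_468, finCompHom_cut_of_mem _ _ hv]

theorem finCompHom_g1_468_notMem {M : ℕ} (g₀ : G ℚ) {v : HeightOneSpectrum (𝓞 ℚ)}
    (hv : v ∉ TM468 M) : finCompHom v (g1_468 M g₀) = 1 := by
  rw [g1_468, finCompHom_cut_of_notMem _ _ hv]

/-- The conjugation property for the cut base point. -/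
theorem Lvl468.conj1 {𝔫 : Ideal (𝓞 ℚ)} {g₀ : G ℚ} {M : ℕ} (hM : Lvl468 𝔫 g₀ M)
    (v : HeightOneSpectrum (𝓞 ℚ)) (Y : GL (Fin 2) (v.adicCompletion ℚ))
    (hY : Near v (v.valuation ℚ (M : ℚ)) Y) :
    LocLevel 𝔫 v ((finCompHom v (g1_468 M g₀))⁻¹ * Y * finCompHom v (g1_468 M g₀)) := by
  by_cases hv : v ∈ TM468 M
  · rw [finCompHom_g1_468_mem g₀ hv]
    exact hM.conj v Y hY
  · rw [finCompHom_g1_468_notMem g₀ hv, inv_one, one_mul, mul_one]
    exact locLevel_of_near_nat v (hY.mono (valuation_le_of_dvd v hM.dvd))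

/-! ## The transport lemma -/

theorem infCompHom_bInf468 (x y : ℝ) :
    infCompHom wQ (bInf wQ_isReal x y)
      = Matrix.GeneralLinearGroup.map (realHom wQ_isReal) (bGL x y) := by
  rw [bInf, locInfReal_apply, infCompHom_locInf_self]

theorem finCompHom_bInf468 (x y : ℝ) (v : HeightOneSpectrum (𝓞 ℚ)) :
    finCompHom v (bInf wQ_isReal x y) = 1 := by
  rw [bInf, locInfReal_apply, finCompHom_locInf]

theorem ratInf_ut468 {a : ℚ} (c : ℚ) (ha : a ≠ 0) :
    ratInf wQ (ut a c 1)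
      = Matrix.GeneralLinearGroup.map (realHom wQ_isReal) (bGL (c : ℝ) (a : ℝ)) := by
  have ha' : (a : ℝ) ≠ 0 := by exact_mod_cast ha
  rw [bGL_eq_ut _ ha', map_ut _ _ ha' one_ne_zero, ratInf, map_ut _ _ ha one_ne_zero, map_one,
    map_one, eq_ratCast, eq_ratCast, map_ratCast, map_ratCast]

/-- **Transport.**  Left invariance under `[[a, c], [0, 1]] ∈ GL₂(ℚ)` and right invariance under
the level group. -/
theorem transport468 {π : HeckeEigensystem ℚ ℂ} {φ : G ℚ → ℂ} (hφ : IsSph0CuspFormFor π φ)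
    (M : ℕ) (g₀ : G ℚ) {a : ℚ} (c : ℚ) (ha : a ≠ 0) (x' : ℝ) {y' : ℝ} (hy' : y' ≠ 0)
    (k k' : ℕ) (h : G ℚ) (hinf : ∀ w : InfinitePlace ℚ, infCompHom w h = 1)
    (hfin : ∀ v : HeightOneSpectrum (𝓞 ℚ), LocLevel π.level v
      ((finCompHom v (g1_468 M g₀))⁻¹ *
        ((finCompHom v (dK468 M k'))⁻¹ * (ratFin v (ut a c 1))⁻¹ * finCompHom v (dK468 M k)) *
        finCompHom v (g1_468 M g₀) * finCompHom v h)) :
    φ (bInf wQ_isReal ((a : ℝ) * x' + (c : ℝ)) ((a : ℝ) * y') * dK468 M k * g1_468 M g₀ * h)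
      = φ (bInf wQ_isReal x' y' * dK468 M k' * g1_468 M g₀) := by
  have ha' : (a : ℝ) ≠ 0 := by exact_mod_cast ha
  refine phi_congr hφ.left_inv hφ.level_inv (ut a c 1) _ _ (fun w => ?_) (fun v => ?_)
  · obtain rfl : w = wQ := Subsingleton.elim _ _
    rw [map_mul, map_mul, map_mul, map_mul, map_mul, hinf, infCompHom_dK468, infCompHom_dK468,
      infCompHom_bInf468, infCompHom_bInf468, ratInf_ut468 c ha, ← bGL_mul _ _ ha' hy', map_mul]
    group
  · rw [map_mul, map_mul, map_mul, map_mul, map_mul, finCompHom_bInf468, finCompHom_bInf468]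
    have e : (1 * finCompHom v (dK468 M k') * finCompHom v (g1_468 M g₀))⁻¹ *
          (ratFin v (ut a c 1))⁻¹ *
          (1 * finCompHom v (dK468 M k) * finCompHom v (g1_468 M g₀) * finCompHom v h)
        = (finCompHom v (g1_468 M g₀))⁻¹ *
          ((finCompHom v (dK468 M k'))⁻¹ * (ratFin v (ut a c 1))⁻¹ * finCompHom v (dK468 M k)) *
          finCompHom v (g1_468 M g₀) * finCompHom v h := by
      group
    rw [e]
    exact hfin v

/-! ## The local condition at the places where `h` is trivial -/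

theorem valuation_le_of_int_dvd468 (v : HeightOneSpectrum (𝓞 ℚ)) {M : ℕ} {n : ℤ}
    (h : (M : ℤ) ∣ n) : v.valuation ℚ ((n : ℤ) : ℚ) ≤ v.valuation ℚ (M : ℚ) := by
  obtain ⟨t, rfl⟩ := h
  rw [Int.cast_mul, Int.cast_natCast, map_mul]
  exact mul_le_of_le_one_right' (Fermat.Agent.LT.H51.MS4.valuation_intCast_le_one v t)

/-- The local condition of `transport468` at a place where `a` is a unit. -/
theorem near_dK468 {M : ℕ} (v : HeightOneSpectrum (𝓞 ℚ)) {a : ℚ} (c : ℚ) {k k' : ℕ}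
    (hk : Nat.Coprime k M) (hk' : Nat.Coprime k' M)
    (hva : v.valuation ℚ a = 1)
    (h1 : v.valuation ℚ ((k : ℚ) - a * (k' : ℚ)) ≤ v.valuation ℚ (M : ℚ))
    (h2 : v.valuation ℚ (1 - a) ≤ 1)
    (hc : v.valuation ℚ c ≤ v.valuation ℚ (M : ℚ)) :
    Near v (v.valuation ℚ (M : ℚ))
      ((finCompHom v (dK468 M k'))⁻¹ * (ratFin v (ut a c 1))⁻¹ * finCompHom v (dK468 M k)) := by
  have ha0 : a ≠ 0 := by
    intro h; rw [h, map_zero] at hva; exact zero_ne_one hva
  by_cases hv : v ∈ TM468 M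
  · have hvk : v.valuation ℚ (k : ℚ) = 1 := valuation_eq_one_of_coprime v hk hv
    have hvk' : v.valuation ℚ (k' : ℚ) = 1 := valuation_eq_one_of_coprime v hk' hv
    have hk0 : (k : ℚ) ≠ 0 := by
      intro h; rw [h, map_zero] at hvk; exact zero_ne_one hvk
    have hk'0 : (k' : ℚ) ≠ 0 := by
      intro h; rw [h, map_zero] at hvk'; exact zero_ne_one hvk'
    have e : (ut (k' : ℚ) 0 1)⁻¹ * (ut a c 1)⁻¹ * ut (k : ℚ) 0 1
        = ut ((k : ℚ) / (a * (k' : ℚ))) (-(c / (a * (k' : ℚ)))) 1 := by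
      rw [← mul_inv_rev, inv_mul_eq_iff_eq_mul, ut_mul _ _ ha0 one_ne_zero hk'0 one_ne_zero,
        ut_mul _ _ (mul_ne_zero ha0 hk'0) (mul_ne_zero one_ne_zero one_ne_zero)
          (div_ne_zero hk0 (mul_ne_zero ha0 hk'0)) one_ne_zero]
      congr 1
      · field_simp
      · field_simp
        ring
      · ring
    rw [finCompHom_dK468_mem k hv, finCompHom_dK468_mem k' hv, ← map_inv, ← map_inv, ← map_mul,
      ← map_mul, e]
    refine near_ratFin_ut ?_ (map_one _) ?_ ?_ ?_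
    · rw [map_div₀, map_mul, hvk, hva, hvk', mul_one, div_one]
    · have e2 : (k : ℚ) / (a * (k' : ℚ)) - 1 = ((k : ℚ) - a * (k' : ℚ)) / (a * (k' : ℚ)) := by
        field_simp
      rw [e2, map_div₀, map_mul, hva, hvk', mul_one, div_one]
      exact h1
    · rw [Valuation.map_neg, map_div₀, map_mul, hva, hvk', mul_one, div_one]
      exact hc
    · rw [sub_self, map_zero]
      exact zero_le
  · have e : (ut a c 1)⁻¹ = ut a⁻¹ (-(c / a)) 1 := by
      rw [ut_inv c ha0 one_ne_zero, mul_one, inv_one]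
    rw [finCompHom_dK468_notMem k hv, finCompHom_dK468_notMem k' hv, inv_one, one_mul, mul_one,
      ← map_inv, e]
    refine near_ratFin_ut ?_ (map_one _) ?_ ?_ ?_
    · rw [map_inv₀, hva, inv_one]
    · have e2 : a⁻¹ - 1 = (1 - a) / a := by
        field_simp
      rw [e2, map_div₀, hva, div_one, valuation_eq_one_of_notMem468 hv]
      exact h2
    · rw [Valuation.map_neg, map_div₀, hva, div_one]
      exact hc
    · rw [sub_self, map_zero]
      exact zero_le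

end Fermat.Agent.LT.T8.H468

end
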