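import Fermat.Agent.LT.T8.H468.Scalar

/-!
# Row LT, tower T8, sub-leaf P-A: the predicates of `A0` on scalar ideles (helper468, OFF-MAIN)
-/

set_option autoImplicit false

open IsDedekindDomain NumberField AutomorphicForm
open scoped MatrixGroups

noncomputable section

namespace Fermat.Agent.LT.T8.H468

open Fermat.Agent.LT.H556.A0
open scoped Classical

/-! ## The closure of an ideal in a completion -/

theorem valued_algebraMap468 (v : HeightOneSpectrum (𝓞 ℚ)) (q : ℚ) :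
    Valued.v (algebraMap ℚ (v.adicCompletion ℚ) q) = v.valuation ℚ q :=
  HeightOneSpectrum.valuedAdicCompletion_eq_valuation' v q

theorem zero_mem_idealClosure468 (𝔫 : Ideal (𝓞 ℚ)) (v : HeightOneSpectrum (𝓞 ℚ)) :
    (0 : v.adicCompletion ℚ) ∈ idealClosure 𝔫 v := by
  apply subset_closure
  exact ⟨0, 𝔫.zero_mem, by simp⟩

/-- `n₀ x` lies in the closure of `𝔫` when `n₀ ∈ 𝔫` and `x` is `v`-integral. -/
theorem mem_idealClosure468 (𝔫 : Ideal (𝓞 ℚ)) (v : HeightOneSpectrum (𝓞 ℚ)) (n₀ : 𝓞 ℚ)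
    (hn₀ : n₀ ∈ 𝔫) (x : ℚ) (hx : v.valuation ℚ x ≤ 1) :
    algebraMap ℚ (v.adicCompletion ℚ) (algebraMap (𝓞 ℚ) ℚ n₀ * x) ∈ idealClosure 𝔫 v := by
  unfold idealClosure
  rw [mem_closure_iff_nhds]
  intro t ht
  obtain ⟨γ, hγ⟩ := Valued.mem_nhds.1 ht
  have hne : MonoidWithZeroHom.ValueGroup₀.embedding γ.1 ≠ 0 :=
    (map_ne_zero _).2 γ.ne_zero
  obtain ⟨a, ha⟩ := HeightOneSpectrum.exists_valuation_sub_lt_of_integer v hx (Units.mk0 _ hne)
  rw [Units.val_mk0] at ha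
  refine ⟨algebraMap ℚ (v.adicCompletion ℚ) (algebraMap (𝓞 ℚ) ℚ (n₀ * a)), hγ ?_,
    ⟨n₀ * a, 𝔫.mul_mem_right a hn₀, rfl⟩⟩
  show Valued.v.restrict _ < γ.1
  rw [Valuation.restrict_lt_iff_lt_embedding, ← map_sub, valued_algebraMap468]
  have h1 : algebraMap (𝓞 ℚ) ℚ (n₀ * a) - algebraMap (𝓞 ℚ) ℚ n₀ * x
      = algebraMap (𝓞 ℚ) ℚ n₀ * (algebraMap (𝓞 ℚ) ℚ a - x) := by
    rw [map_mul]; ring
  rw [h1, map_mul]
  calc v.valuation ℚ (algebraMap (𝓞 ℚ) ℚ n₀) * v.valuation ℚ (algebraMap (𝓞 ℚ) ℚ a - x)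
      ≤ 1 * v.valuation ℚ (algebraMap (𝓞 ℚ) ℚ a - x) :=
        mul_le_mul_left (HeightOneSpectrum.valuation_le_one v n₀) _
    _ = v.valuation ℚ (algebraMap (𝓞 ℚ) ℚ a - x) := one_mul _
    _ < _ := ha

/-! ## Valuations of integers at the places of `ℚ` -/

open Rat.HeightOneSpectrum in
theorem natCast_mem_asIdeal_iff468 (v : HeightOneSpectrum (𝓞 ℚ)) (n : ℕ) :
    ((n : ℕ) : 𝓞 ℚ) ∈ v.asIdeal ↔ natGenerator v ∣ n := by
  rw [natGenerator_dvd_iff,
    ← Ideal.apply_mem_of_equiv_iff (f := Rat.IsIntegralClosure.intEquiv (𝓞 ℚ)), map_natCast]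

open Rat.HeightOneSpectrum in
theorem intCast_mem_asIdeal_iff468 (v : HeightOneSpectrum (𝓞 ℚ)) (n : ℤ) :
    ((n : ℤ) : 𝓞 ℚ) ∈ v.asIdeal ↔ (natGenerator v : ℤ) ∣ n := by
  rw [← Ideal.apply_mem_of_equiv_iff (f := Rat.IsIntegralClosure.intEquiv (𝓞 ℚ)), map_intCast,
    ← span_natGenerator, Ideal.mem_span_singleton]
  simp

theorem valuation_intCast_le_one468 (v : HeightOneSpectrum (𝓞 ℚ)) (n : ℤ) :
    v.valuation ℚ (n : ℚ) ≤ 1 := by
  have h := HeightOneSpectrum.valuation_le_one (K := ℚ) v ((n : ℤ) : 𝓞 ℚ)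
  simpa using h

open Rat.HeightOneSpectrum in
theorem valuation_intCast_eq_one468 (v : HeightOneSpectrum (𝓞 ℚ)) (n : ℤ)
    (h : ¬ (natGenerator v : ℤ) ∣ n) : v.valuation ℚ (n : ℚ) = 1 := by
  have h1 : v.valuation ℚ (algebraMap (𝓞 ℚ) ℚ ((n : ℤ) : 𝓞 ℚ)) = 1 :=
    (HeightOneSpectrum.valuation_eq_one_iff_notMem v).2
      (fun hm => h ((intCast_mem_asIdeal_iff468 v n).1 hm))
  rwa [map_intCast] at h1

open Rat.HeightOneSpectrum in
theorem valuation_natCast_eq_one468 (v : HeightOneSpectrum (𝓞 ℚ)) (n : ℕ)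
    (h : ¬ natGenerator v ∣ n) : v.valuation ℚ (n : ℚ) = 1 := by
  have := valuation_intCast_eq_one468 v (n : ℤ) (fun hd => h (Int.natCast_dvd_natCast.1 hd))
  simpa using this

open Rat.HeightOneSpectrum in
theorem asIdeal_eq_span468 (v : HeightOneSpectrum (𝓞 ℚ)) :
    v.asIdeal = Ideal.span {((natGenerator v : ℕ) : 𝓞 ℚ)} := by
  apply le_antisymm
  · intro x hx
    rw [Ideal.mem_span_singleton]
    have h1 : Rat.IsIntegralClosure.intEquiv (𝓞 ℚ) x ∈
        Ideal.map (Rat.IsIntegralClosure.intEquiv (𝓞 ℚ)) v.asIdeal :=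
      Ideal.apply_mem_of_equiv_iff.2 hx
    rw [← span_natGenerator, Ideal.mem_span_singleton] at h1
    obtain ⟨c, hc⟩ := h1
    refine ⟨(Rat.IsIntegralClosure.intEquiv (𝓞 ℚ)).symm c, ?_⟩
    apply (Rat.IsIntegralClosure.intEquiv (𝓞 ℚ)).injective
    rw [hc, map_mul, RingEquiv.apply_symm_apply, map_natCast]
  · rw [Ideal.span_singleton_le_iff_mem]
    exact (natCast_mem_asIdeal_iff468 v _).2 dvd_rfl

open Rat.HeightOneSpectrum in
theorem valuation_natGenerator468 (v : HeightOneSpectrum (𝓞 ℚ)) :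
    v.valuation ℚ ((natGenerator v : ℕ) : ℚ) = WithZero.exp (-1 : ℤ) := by
  have hne : ((natGenerator v : ℕ) : 𝓞 ℚ) ≠ 0 := by
    have := (prime_natGenerator v).ne_zero
    exact_mod_cast this
  have h := HeightOneSpectrum.intValuation_singleton v hne (asIdeal_eq_span468 v)
  rw [← HeightOneSpectrum.valuation_of_algebraMap (K := ℚ)] at h
  simpa using h

/-! ## The predicates -/

open Rat.HeightOneSpectrum in
/-- The scalar idele `ℓ_v` at `v` (`ℓ` the prime under `v`) is a scalar uniformiser at `v`. -/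
theorem isScalarUniformizerAt468 (v : HeightOneSpectrum (𝓞 ℚ)) (h0 : ((natGenerator v : ℕ) : ℚ) ≠ 0) :
    IsScalarUniformizerAt v (sc468 (locIdele468 v ((natGenerator v : ℕ) : ℚ) h0)) := by
  refine ⟨⟨fun w => trivAtInf_sc468 w _ ?_, fun v' hv' => trivAtFin_sc468 v' _ ?_⟩,
    algebraMap ℚ (v.adicCompletion ℚ) ((natGenerator v : ℕ) : ℚ), ?_, ?_⟩
  · rw [locIdele468_val, locPart468_fst]
  · rw [locIdele468_val, locPart468_snd_ne _ _ _ hv']
  · rw [valued_algebraMap468, valuation_natGenerator468]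
  · rw [finComp_sc468, locIdele468_val, locPart468_snd_same]

theorem isLocalAtInf_sc468 (w : InfinitePlace ℚ) (a : (Adl ℚ)ˣ)
    (h : ∀ v : HeightOneSpectrum (𝓞 ℚ), (a : Adl ℚ).2 v = 1) : IsLocalAtInf w (sc468 a) := by
  refine ⟨fun w' hw' => absurd (Subsingleton.elim w' w) hw', fun v => trivAtFin_sc468 v a (h v)⟩

theorem extensionEmbedding_algebraMap468 (w : InfinitePlace ℚ) (q : ℚ) :
    InfinitePlace.Completion.extensionEmbedding w (algebraMap ℚ w.Completion q) = (q : ℂ) := by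
  have := InfinitePlace.Completion.extensionEmbedding_coe w q
  simp

/-- Positive rational scalars at the real place. -/
theorem isArchPosScalar468 (w : InfinitePlace ℚ) (r : ℚ) (hr : 0 < r) :
    IsArchPosScalar w (sc468 (infIdele468 r hr.ne')) := by
  refine ⟨isLocalAtInf_sc468 w _ (fun v => ?_), (r : ℝ), by exact_mod_cast hr, ?_⟩
  · rw [infIdele468_val, infPart468_snd]
  · rw [infComp_sc468, infIdele468_val, infPart468_fst, extensionEmbedding_algebraMap468]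
    simp

/-- `-1` at the real place lies in `SO(2)`. -/
theorem isArchCompact_neg_one468 (w : InfinitePlace ℚ) :
    IsArchCompact w (sc468 (infIdele468 (-1) (by norm_num))) := by
  have hc : infComp w (sc468 (infIdele468 (-1) (by norm_num)))
      = Matrix.diagonal (fun _ => (-1 : ℂ)) := by
    rw [infComp_sc468, infIdele468_val, infPart468_fst, extensionEmbedding_algebraMap468]
    simp
  refine ⟨isLocalAtInf_sc468 w _ (fun v => ?_), ?_, fun _ => ?_⟩
  · rw [infIdele468_val, infPart468_snd]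
  · rw [hc, Matrix.diagonal_conjTranspose, Matrix.diagonal_mul_diagonal]
    simp
  · rw [hc, Matrix.det_diagonal]
    simp

/-- Level group membership of a scalar idele. -/
theorem inLevelGroup_sc468 (𝔫 : Ideal (𝓞 ℚ)) (u : (Adl ℚ)ˣ)
    (h1 : ∀ w : InfinitePlace ℚ, (u : Adl ℚ).1 w = 1)
    (h2 : ∀ v : HeightOneSpectrum (𝓞 ℚ), (u : Adl ℚ).2 v - 1 ∈ idealClosure 𝔫 v)
    (h3 : ∀ v : HeightOneSpectrum (𝓞 ℚ),
      ((u⁻¹ : (Adl ℚ)ˣ) : Adl ℚ).2 v - 1 ∈ idealClosure 𝔫 v) :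
    InLevelGroup 𝔫 (sc468 u) := by
  refine ⟨fun w => trivAtInf_sc468 w u (h1 w), fun v i j => ⟨?_, ?_⟩⟩
  · rw [finComp_sc468, Matrix.sub_apply, Matrix.diagonal_apply, Matrix.one_apply]
    split_ifs
    · exact h2 v
    · rw [sub_zero]; exact zero_mem_idealClosure468 𝔫 v
  · rw [← map_inv, finComp_sc468, Matrix.sub_apply, Matrix.diagonal_apply, Matrix.one_apply]
    split_ifs
    · exact h3 v
    · rw [sub_zero]; exact zero_mem_idealClosure468 𝔫 v

end Fermat.Agent.LT.T8.H468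

end
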