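import Fermat.Agent.LT.H556.A0

/-!
# Row LT, tower T8, sub-leaf P-A (`CentralEven556`): scalar ideles of `ℚ` (helper468, OFF-MAIN)

Scalar matrices of `GL₂(𝔸_ℚ)` attached to ideles, and the predicates of `LT/H556/A0.lean`
(`IsScalarUniformizerAt`, `IsArchPosScalar`, `IsArchCompact`, `InLevelGroup`) for them.
Definitions and elementary lemmas only.
-/

set_option autoImplicit false

open IsDedekindDomain NumberField AutomorphicForm
open scoped MatrixGroups

noncomputable section

namespace Fermat.Agent.LT.T8.H468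

open Fermat.Agent.LT.H556.A0
open scoped Classical

/-! ## The scalar map -/

/-- The scalar matrix of an idele. -/
def sc468 : (Adl ℚ)ˣ →* G ℚ :=
  Units.map (Matrix.scalar (Fin 2) : Adl ℚ →+* Matrix (Fin 2) (Fin 2) (Adl ℚ)).toMonoidHom

theorem sc468_coe (a : (Adl ℚ)ˣ) :
    ((sc468 a : G ℚ) : Matrix (Fin 2) (Fin 2) (Adl ℚ)) = Matrix.scalar (Fin 2) (a : Adl ℚ) := rfl

theorem sc468_apply (a : (Adl ℚ)ˣ) (i j : Fin 2) :
    ((sc468 a : G ℚ) : Matrix (Fin 2) (Fin 2) (Adl ℚ)) i j = if i = j then (a : Adl ℚ) else 0 := by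
  rw [sc468_coe, Matrix.scalar_apply, Matrix.diagonal_apply]

theorem sc468_comm (a : (Adl ℚ)ˣ) (g : G ℚ) : sc468 a * g = g * sc468 a := by
  apply Units.ext
  simp only [Units.val_mul]
  rw [sc468_coe]
  exact (Matrix.scalar_commute (a : Adl ℚ) (fun r' => Commute.all _ _) _).eq

theorem finComp_sc468 (v : HeightOneSpectrum (𝓞 ℚ)) (a : (Adl ℚ)ˣ) :
    finComp v (sc468 a) = Matrix.diagonal (fun _ => (a : Adl ℚ).2 v) := by
  ext i j
  simp only [finComp, sc468_apply, Matrix.diagonal_apply]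
  split_ifs <;> rfl

theorem infComp_sc468 (w : InfinitePlace ℚ) (a : (Adl ℚ)ˣ) :
    infComp w (sc468 a) = Matrix.diagonal
      (fun _ => InfinitePlace.Completion.extensionEmbedding w ((a : Adl ℚ).1 w)) := by
  ext i j
  simp only [infComp, sc468_apply, Matrix.diagonal_apply]
  split_ifs
  · rfl
  · exact map_zero _

theorem trivAtInf_sc468 (w : InfinitePlace ℚ) (a : (Adl ℚ)ˣ) (h : (a : Adl ℚ).1 w = 1) :
    TrivAtInf w (sc468 a) := by
  intro i j
  rw [sc468_apply, Matrix.one_apply]
  split_ifs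
  · exact h
  · rfl

theorem trivAtFin_sc468 (v : HeightOneSpectrum (𝓞 ℚ)) (a : (Adl ℚ)ˣ) (h : (a : Adl ℚ).2 v = 1) :
    TrivAtFin v (sc468 a) := by
  unfold TrivAtFin
  rw [finComp_sc468, h, Matrix.diagonal_one]

/-! ## Adeles with prescribed components -/

/-- Infinite part of the principal adele of `q`. -/
def infPart468 (q : ℚ) : Adl ℚ := ((algebraMap ℚ (Adl ℚ) q).1, 1)

/-- Finite part of the principal adele of `q`. -/
def finPart468 (q : ℚ) : Adl ℚ := (1, (algebraMap ℚ (Adl ℚ) q).2)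

/-- Local adele: `c` at the finite place `v`, `1` at every other place. -/
def locPart468 (v : HeightOneSpectrum (𝓞 ℚ)) (c : v.adicCompletion ℚ) : Adl ℚ :=
  (1, RestrictedProduct.mulSingle _ v c)

theorem infPart468_fst (q : ℚ) (w : InfinitePlace ℚ) :
    (infPart468 q).1 w = algebraMap ℚ w.Completion q := rfl

theorem infPart468_snd (q : ℚ) (v : HeightOneSpectrum (𝓞 ℚ)) : (infPart468 q).2 v = 1 := rfl

theorem finPart468_fst (q : ℚ) (w : InfinitePlace ℚ) : (finPart468 q).1 w = 1 := rfl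

theorem finPart468_snd (q : ℚ) (v : HeightOneSpectrum (𝓞 ℚ)) :
    (finPart468 q).2 v = algebraMap ℚ (v.adicCompletion ℚ) q := rfl

theorem locPart468_fst (v : HeightOneSpectrum (𝓞 ℚ)) (c : v.adicCompletion ℚ)
    (w : InfinitePlace ℚ) : (locPart468 v c).1 w = 1 := rfl

theorem locPart468_snd_same (v : HeightOneSpectrum (𝓞 ℚ)) (c : v.adicCompletion ℚ) :
    (locPart468 v c).2 v = c :=
  RestrictedProduct.mulSingle_eq_same _ v c

theorem locPart468_snd_ne (v v' : HeightOneSpectrum (𝓞 ℚ)) (c : v.adicCompletion ℚ)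
    (h : v' ≠ v) : (locPart468 v c).2 v' = 1 :=
  RestrictedProduct.mulSingle_eq_of_ne _ c h

/-- Extensionality for adeles of `ℚ`. -/
theorem adl_ext468 {a b : Adl ℚ} (h1 : ∀ w : InfinitePlace ℚ, a.1 w = b.1 w)
    (h2 : ∀ v : HeightOneSpectrum (𝓞 ℚ), a.2 v = b.2 v) : a = b :=
  Prod.ext (funext h1) (FiniteAdeleRing.ext ℚ h2)

theorem mul_fst468 (a b : Adl ℚ) (w : InfinitePlace ℚ) : (a * b).1 w = a.1 w * b.1 w := rfl

theorem mul_snd468 (a b : Adl ℚ) (v : HeightOneSpectrum (𝓞 ℚ)) : (a * b).2 v = a.2 v * b.2 v :=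
  rfl

theorem one_fst468 (w : InfinitePlace ℚ) : (1 : Adl ℚ).1 w = 1 := rfl

theorem one_snd468 (v : HeightOneSpectrum (𝓞 ℚ)) : (1 : Adl ℚ).2 v = 1 := rfl

theorem infPart468_mul_finPart468 (q : ℚ) :
    infPart468 q * finPart468 q = algebraMap ℚ (Adl ℚ) q := by
  apply adl_ext468
  · intro w
    rw [mul_fst468, finPart468_fst, mul_one]
    rfl
  · intro v
    rw [mul_snd468, infPart468_snd, one_mul]
    rfl

theorem infPart468_mul (q r : ℚ) : infPart468 (q * r) = infPart468 q * infPart468 r := by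
  apply adl_ext468
  · intro w
    rw [mul_fst468, infPart468_fst, infPart468_fst, infPart468_fst, map_mul]
  · intro v
    rw [mul_snd468, infPart468_snd, infPart468_snd, infPart468_snd, mul_one]

theorem infPart468_one : infPart468 1 = 1 := by
  apply adl_ext468
  · intro w
    rw [infPart468_fst, map_one, one_fst468]
  · intro v
    rw [infPart468_snd, one_snd468]

theorem finPart468_mul (q r : ℚ) : finPart468 (q * r) = finPart468 q * finPart468 r := by
  apply adl_ext468
  · intro w
    rw [mul_fst468, finPart468_fst, finPart468_fst, finPart468_fst, mul_one]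
  · intro v
    rw [mul_snd468, finPart468_snd, finPart468_snd, finPart468_snd, map_mul]

theorem finPart468_one : finPart468 1 = 1 := by
  apply adl_ext468
  · intro w
    rw [finPart468_fst, one_fst468]
  · intro v
    rw [finPart468_snd, map_one, one_snd468]

theorem locPart468_mul (v : HeightOneSpectrum (𝓞 ℚ)) (c d : v.adicCompletion ℚ) :
    locPart468 v (c * d) = locPart468 v c * locPart468 v d := by
  apply adl_ext468
  · intro w
    rw [mul_fst468, locPart468_fst, locPart468_fst, locPart468_fst, mul_one]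
  · intro v'
    rw [mul_snd468]
    by_cases h : v' = v
    · subst h
      rw [locPart468_snd_same, locPart468_snd_same, locPart468_snd_same]
    · rw [locPart468_snd_ne _ _ _ h, locPart468_snd_ne _ _ _ h, locPart468_snd_ne _ _ _ h,
        mul_one]

theorem locPart468_one (v : HeightOneSpectrum (𝓞 ℚ)) : locPart468 v 1 = 1 := by
  apply adl_ext468
  · intro w
    rw [locPart468_fst, one_fst468]
  · intro v'
    by_cases h : v' = v
    · subst h
      rw [locPart468_snd_same, one_snd468]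
    · rw [locPart468_snd_ne _ _ _ h, one_snd468]

/-! ## The ideles -/

/-- The idele `(q)_∞`. -/
def infIdele468 (q : ℚ) (hq : q ≠ 0) : (Adl ℚ)ˣ where
  val := infPart468 q
  inv := infPart468 q⁻¹
  val_inv := by rw [← infPart468_mul, mul_inv_cancel₀ hq, infPart468_one]
  inv_val := by rw [← infPart468_mul, inv_mul_cancel₀ hq, infPart468_one]

/-- The idele `(q)_f`. -/
def finIdele468 (q : ℚ) (hq : q ≠ 0) : (Adl ℚ)ˣ where
  val := finPart468 q
  inv := finPart468 q⁻¹
  val_inv := by rw [← finPart468_mul, mul_inv_cancel₀ hq, finPart468_one]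
  inv_val := by rw [← finPart468_mul, inv_mul_cancel₀ hq, finPart468_one]

/-- The idele `(q)_v`, for a rational number `q ≠ 0`. -/
def locIdele468 (v : HeightOneSpectrum (𝓞 ℚ)) (q : ℚ) (hq : q ≠ 0) : (Adl ℚ)ˣ where
  val := locPart468 v (algebraMap ℚ (v.adicCompletion ℚ) q)
  inv := locPart468 v (algebraMap ℚ (v.adicCompletion ℚ) q⁻¹)
  val_inv := by rw [← locPart468_mul, ← map_mul, mul_inv_cancel₀ hq, map_one, locPart468_one]
  inv_val := by rw [← locPart468_mul, ← map_mul, inv_mul_cancel₀ hq, map_one, locPart468_one]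

theorem infIdele468_val (q : ℚ) (hq : q ≠ 0) : ((infIdele468 q hq : (Adl ℚ)ˣ) : Adl ℚ)
    = infPart468 q := rfl

theorem finIdele468_val (q : ℚ) (hq : q ≠ 0) : ((finIdele468 q hq : (Adl ℚ)ˣ) : Adl ℚ)
    = finPart468 q := rfl

theorem locIdele468_val (v : HeightOneSpectrum (𝓞 ℚ)) (q : ℚ) (hq : q ≠ 0) :
    ((locIdele468 v q hq : (Adl ℚ)ˣ) : Adl ℚ)
      = locPart468 v (algebraMap ℚ (v.adicCompletion ℚ) q) := rfl

/-- The principal idele is the product of its infinite and finite parts. -/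
theorem principal_eq468 (q : ℚ) (hq : q ≠ 0) :
    Units.map (algebraMap ℚ (Adl ℚ)).toMonoidHom (Units.mk0 q hq)
      = infIdele468 q hq * finIdele468 q hq := by
  apply Units.ext
  rw [Units.val_mul, infIdele468_val, finIdele468_val, infPart468_mul_finPart468]
  rfl

/-- The image in `GL₂(𝔸_ℚ)` of the rational scalar matrix `q`. -/
theorem map_scalar468 (q : ℚ) (hq : q ≠ 0) (γ : GL (Fin 2) ℚ)
    (hγ : (γ : Matrix (Fin 2) (Fin 2) ℚ) = Matrix.scalar (Fin 2) q) :
    Matrix.GeneralLinearGroup.map (algebraMap ℚ (Adl ℚ)) γ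
      = sc468 (infIdele468 q hq * finIdele468 q hq) := by
  apply Units.ext
  ext i j
  rw [sc468_apply, Units.val_mul, infIdele468_val, finIdele468_val, infPart468_mul_finPart468]
  simp only [Matrix.GeneralLinearGroup.map_apply, hγ, Matrix.scalar_apply,
    Matrix.diagonal_apply]
  split_ifs
  · rfl
  · exact map_zero _

end Fermat.Agent.LT.T8.H468

end
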